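import Fermat.Agent.Jacobian.RiemannRoch.SectionDiv
import Fermat.Agent.Jacobian.PatchedModule.Map
import Fermat.Agent.Jacobian.PatchedModule.Fibre
import Mathlib.LinearAlgebra.Dimension.FreeAndStrongRankCondition

/-!
# Degree and Riemann's theorem for a two-chart curve

`deg ξ := χ(ξ) - χ(1)`; it is additive, counts the points of an effective divisor, and a class of
degree zero with a nonzero section is trivial.
-/

set_option autoImplicit false

noncomputable section

universe u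

open CategoryTheory TopologicalSpace AlgebraicGeometry

namespace Fermat.Agent.Jacobian

open LineCocycle

variable {C : Scheme.{u}}

section general

variable {k : Type u} [CommRing k] {c : C ⟶ Spec (CommRingCat.of k)} (D : CurveChart c)

/-- An isomorphism of cocycles on sections, over the base. -/
def LineCocycle.Rel.secLin {L M : LineCocycle C} (e : Rel L M) (W : C.Opens) :
    Sec c L W →ₗ[k] Sec c M W where
  toFun s := e.sectEquiv (W := W) s
  map_add' s t := map_add (e.sectEquiv (W := W)) s t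
  map_smul' r s := map_smul (e.sectEquiv (W := W)) (baseHom c W r) s

/-- Isomorphic cocycles have isomorphic complexes. -/
def CurveChart.isoOfRel {L M : LineCocycle C} (e : Rel L M) :
    PatchedModule.ChartIso (D.cech L) (D.cech M) where
  e₀ := e.secLin D.U₀
  e₁ := e.secLin D.U₁
  e := e.secLin (D.U₀ ⊓ D.U₁)
  e_r₀ m := (e.sectMap_restrict inf_le_left m).symm
  e_r₁ m := (e.sectMap_restrict inf_le_right m).symm
  e_X m := map_smul (e.sectEquiv (W := D.U₀ ⊓ D.U₁)) D.x₀₁ m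
  bij₀ := (e.sectEquiv (W := D.U₀)).bijective
  bij₁ := (e.sectEquiv (W := D.U₁)).bijective

/-- A global section gives an element of `H⁰`. -/
def CurveChart.toH0 (L : LineCocycle C) : Sec c L ⊤ →ₗ[k] (D.cech L).H0 :=
  LinearMap.codRestrict _ ((Sec.resLin le_top).prod (Sec.resLin le_top)) fun s => by
    rw [LinearMap.mem_ker, PatchedModule.d_apply, sub_eq_zero]
    show Sect.restrict inf_le_left (Sect.restrict le_top (show L.Sect ⊤ from s)) =
      Sect.restrict inf_le_right (Sect.restrict le_top (show L.Sect ⊤ from s))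
    rw [Sect.restrict_restrict, Sect.restrict_restrict]

theorem CurveChart.bijective_toH0 (L : LineCocycle C) : Function.Bijective (D.toH0 L) := by
  refine ⟨fun s t h => ?_, fun z => ?_⟩
  · have h0 : Sect.restrict (L := L) (le_top : D.U₀ ≤ ⊤) s = Sect.restrict le_top t :=
      congrArg (fun z : (D.cech L).H0 => z.1.1) h
    have h1 : Sect.restrict (L := L) (le_top : D.U₁ ≤ ⊤) s = Sect.restrict le_top t :=
      congrArg (fun z : (D.cech L).H0 => z.1.2) h
    refine Sect.ext_of_cover (L := L)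
      (fun p : C × Bool => (if p.2 then D.U₀ else D.U₁) ⊓ L.U p.1) (fun _ => le_top)
      (fun w _ => ?_) (fun p => p.1) (fun _ => inf_le_right) fun p => ?_
    · rcases (D.cover.ge (Set.mem_univ w) : w ∈ D.U₀ ⊔ D.U₁) with h | h
      · exact ⟨(w, true), by simpa using h, L.mem w⟩
      · exact ⟨(w, false), by simpa using h, L.mem w⟩
    · obtain ⟨x, b⟩ := p
      cases b
      · have := congrArg (fun r : L.Sect D.U₁ => r.at x (V := D.U₁ ⊓ L.U x) inf_le_left inf_le_right) h1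
        simp only [Sect.at_restrict] at this
        exact this
      · have := congrArg (fun r : L.Sect D.U₀ => r.at x (V := D.U₀ ⊓ L.U x) inf_le_left inf_le_right) h0
        simp only [Sect.at_restrict] at this
        exact this
  · obtain ⟨s, hs₀, hs₁⟩ := D.exists_glue_of_d_eq_zero L z.1 (LinearMap.mem_ker.1 z.2)
    exact ⟨s, Subtype.ext (Prod.ext hs₀ hs₁)⟩

/-- `H⁰` is the module of global sections. -/
def CurveChart.sectH0Equiv (L : LineCocycle C) : Sec c L ⊤ ≃ₗ[k] (D.cech L).H0 :=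
  LinearEquiv.ofBijective (D.toH0 L) (D.bijective_toH0 L)

end general

section field

variable {K : Type u} [Field K] {c : C ⟶ Spec (CommRingCat.of K)} (D : CurveChart c)

namespace CurveChart

/-- Euler characteristic of a class. -/
def chi : Pic C → ℤ :=
  Quotient.lift (fun L => (D.cech L).chi) fun _ _ ⟨e⟩ => ((D.isoOfRel e).index_eq).symm

/-- Dimension of the global sections of a class. -/
def h0 : Pic C → ℕ :=
  Quotient.lift (fun L => Module.finrank K (D.cech L).H0) fun _ _ ⟨e⟩ =>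
    (D.isoOfRel e).H0Equiv.finrank_eq

/-- Dimension of `H¹` of a class. -/
def h1 : Pic C → ℕ :=
  Quotient.lift (fun L => Module.finrank K (D.cech L).H1) fun _ _ ⟨e⟩ =>
    (D.isoOfRel e).H1Equiv.finrank_eq

/-- The degree. -/
def deg (ξ : Pic C) : ℤ := D.chi ξ - D.chi 1

/-- The genus. -/
def genus : ℕ := D.h1 1

lemma chi_mk (L : LineCocycle C) : D.chi (Pic.mk L) = (D.cech L).chi := rfl
lemma h0_mk (L : LineCocycle C) : D.h0 (Pic.mk L) = Module.finrank K (D.cech L).H0 := rfl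
lemma h1_mk (L : LineCocycle C) : D.h1 (Pic.mk L) = Module.finrank K (D.cech L).H1 := rfl

lemma chi_eq_sub (ξ : Pic C) : D.chi ξ = (D.h0 ξ : ℤ) - D.h1 ξ := by
  obtain ⟨L, rfl⟩ := Pic.mk_surjective ξ
  exact PatchedModule.chi_eq _

lemma chi_eq_deg (ξ : Pic C) : D.chi ξ = D.deg ξ + D.chi 1 := by rw [deg, sub_add_cancel]

lemma surjective_d_iff (L : LineCocycle C) :
    Function.Surjective (D.cech L).d ↔ D.h1 (Pic.mk L) = 0 := by
  have := (D.cech L).finiteDimensional_H1
  rw [h1_mk, Module.finrank_zero_iff, Submodule.Quotient.subsingleton_iff, LinearMap.range_eq_top]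

lemma injective_d_iff (L : LineCocycle C) :
    Function.Injective (D.cech L).d ↔ D.h0 (Pic.mk L) = 0 := by
  have := (D.cech L).finiteDimensional_H0
  rw [h0_mk, Submodule.finrank_eq_zero, LinearMap.ker_eq_bot]

lemma bijective_d_iff (L : LineCocycle C) :
    Function.Bijective (D.cech L).d ↔ D.h0 (Pic.mk L) = 0 ∧ D.h1 (Pic.mk L) = 0 := by
  rw [Function.Bijective, injective_d_iff, surjective_d_iff]

lemma finrank_sect (L : LineCocycle C) :
    Module.finrank K (Sec c L ⊤) = D.h0 (Pic.mk L) :=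
  (D.sectH0Equiv L).finrank_eq

include D in
lemma finiteDimensional_sect (L : LineCocycle C) :
    FiniteDimensional K (Sec c L ⊤) :=
  have := (D.cech L).finiteDimensional_H0
  Module.Finite.equiv (D.sectH0Equiv L).symm

lemma exists_sect_ne_zero {L : LineCocycle C} (h : 0 < D.h0 (Pic.mk L)) :
    ∃ s : L.Sect ⊤, s ≠ 0 := by
  have := D.finiteDimensional_sect L
  rw [← finrank_sect, Module.finrank_pos_iff_exists_ne_zero] at h
  obtain ⟨s, hs⟩ := h
  exact ⟨s, hs⟩

variable [IsIntegral C] [IsAlgClosed K] [SmoothOfRelativeDimension 1 c] [LocallyOfFiniteType c]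

omit [IsAlgClosed K] [SmoothOfRelativeDimension 1 c] [LocallyOfFiniteType c] [IsIntegral C] in
lemma resLin_mulCanonLin (E : EffDiv C) (L : LineCocycle C) {W W' : C.Opens} (h : W' ≤ W)
    (t : Sec c L W) :
    E.mulCanonLin c L W' (Sec.resLin h t) = Sec.resLin h (E.mulCanonLin c L W t) :=
  Sect.ext' (L := L.mul E.cocycle) fun x => by
    show (Sect.mul (Sect.restrict h (show L.Sect W from t)) (E.canon W')).at x _ _ =
      (Sect.restrict h (Sect.mul (show L.Sect W from t) (E.canon W))).at x _ _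
    simp

variable {E : EffDiv C} {z : C}

/-- Multiplying by `O(z)` raises `χ` by one. -/
theorem chi_mul_point (hE : IsPointDiv E z) (hc : IsClosed ({z} : Set C)) (L : LineCocycle C) :
    (D.cech (L.mul E.cocycle)).chi = (D.cech L).chi + 1 := by
  classical
  have hU : IsAffineOpen (D.U₀ ⊓ D.U₁) := D.inf_eq₀ ▸ D.affine₀.basicOpen D.x
  obtain ⟨i₀, f₀⟩ := finrank_coker_point c hE hc L D.affine₀
  obtain ⟨i₁, f₁⟩ := finrank_coker_point c hE hc L D.affine₁
  obtain ⟨i, f⟩ := finrank_coker_point c hE hc L hU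
  have key := (D.cech L).chi_add_of_injective (D.cech (L.mul E.cocycle))
    (E.mulCanonLin c L D.U₀) (E.mulCanonLin c L D.U₁) (E.mulCanonLin c L (D.U₀ ⊓ D.U₁))
    (fun m => resLin_mulCanonLin E L inf_le_left m) (fun m => resLin_mulCanonLin E L inf_le_right m)
    (E.mulCanon_injective L _) (E.mulCanon_injective L _) (E.mulCanon_injective L _)
  rw [f₀, f₁, f] at key
  have hcov : z ∈ D.U₀ ∨ z ∈ D.U₁ := (D.cover.ge (Set.mem_univ z) : z ∈ D.U₀ ⊔ D.U₁)
  have hinf : z ∈ D.U₀ ⊓ D.U₁ ↔ z ∈ D.U₀ ∧ z ∈ D.U₁ := Iff.rfl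
  by_cases h₀ : z ∈ D.U₀ <;> by_cases h₁ : z ∈ D.U₁ <;> simp_all

/-- Multiplying by `O(z)` keeps `H¹ = 0`. -/
theorem surjective_mul_point (hE : IsPointDiv E z) (hc : IsClosed ({z} : Set C)) (L : LineCocycle C)
    (h : Function.Surjective (D.cech L).d) :
    Function.Surjective (D.cech (L.mul E.cocycle)).d := by
  classical
  let N := L.mul E.cocycle
  have hU : IsAffineOpen (D.U₀ ⊓ D.U₁) := D.inf_eq₀ ▸ D.affine₀.basicOpen D.x
  have himage : ∀ t, E.mulCanonLin c L (D.U₀ ⊓ D.U₁) t ∈ LinearMap.range (D.cech N).d := by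
    intro t
    obtain ⟨⟨a, b⟩, rfl⟩ := h t
    refine ⟨(E.mulCanonLin c L D.U₀ a, E.mulCanonLin c L D.U₁ b), ?_⟩
    rw [PatchedModule.d_apply, PatchedModule.d_apply, map_sub]
    exact congrArg₂ (· - ·) (resLin_mulCanonLin E L inf_le_left a).symm
      (resLin_mulCanonLin E L inf_le_right b).symm
  rw [← LinearMap.range_eq_top, eq_top_iff]
  intro v _
  obtain ⟨-, f⟩ := finrank_coker_point c hE hc L hU
  by_cases hz : z ∈ D.U₀ ⊓ D.U₁
  · rw [if_pos hz] at f
    obtain ⟨u, hu⟩ := exists_sect_mem_basicOpen N D.affine₀ hz.1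
    set v₀ : Sec c N (D.U₀ ⊓ D.U₁) := Sec.resLin inf_le_left (show Sec c N D.U₀ from u)
    have hv₀ : v₀ ∈ LinearMap.range (D.cech N).d := ⟨(u, 0), by
      rw [PatchedModule.d_apply, map_zero, sub_zero]; rfl⟩
    have hne : (LinearMap.range (E.mulCanonLin c L (D.U₀ ⊓ D.U₁))).mkQ v₀ ≠ 0 := by
      intro h0
      obtain ⟨t, ht⟩ := (Submodule.Quotient.mk_eq_zero _).1 h0
      have hzV : z ∈ (D.U₀ ⊓ D.U₁) ⊓ N.U z := ⟨hz, N.mem z⟩
      have h1 := congrArg (fun e : N.Sect (D.U₀ ⊓ D.U₁) =>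
        e.at z (V := (D.U₀ ⊓ D.U₁) ⊓ N.U z) inf_le_left inf_le_right) ht
      have h2 : z ∈ C.basicOpen (Sect.at (L := N) (v₀ : N.Sect (D.U₀ ⊓ D.U₁)) z
          (V := (D.U₀ ⊓ D.U₁) ⊓ N.U z) inf_le_left inf_le_right) := by
        show z ∈ C.basicOpen ((Sect.restrict inf_le_left u).at z _ _)
        rw [Sect.at_restrict, ← Sect.res_at u z inf_le_left inf_le_right
          (le_inf (inf_le_left.trans inf_le_left) inf_le_right :
            (D.U₀ ⊓ D.U₁) ⊓ N.U z ≤ D.U₀ ⊓ N.U z), mem_basicOpen_res _ hzV]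
        exact hu
      refine hE.notMem_basicOpen_eqn (hzV.2.2 |> fun _ => (inf_le_right.trans inf_le_right :
        (D.U₀ ⊓ D.U₁) ⊓ N.U z ≤ E.V z)) hzV ?_
      refine mem_basicOpen_of_dvd ?_ h2
      rw [← h1]
      show _ ∣ (Sect.mul (show L.Sect _ from t) (E.canon _)).at z _ _
      rw [Sect.at_mul', EffDiv.at_canon]
      exact dvd_mul_left _ _
    obtain ⟨a, ha⟩ := exists_smul_eq_of_finrank_eq_one f hne
      ((LinearMap.range (E.mulCanonLin c L (D.U₀ ⊓ D.U₁))).mkQ v)
    rw [← map_smul, Submodule.mkQ_apply, Submodule.mkQ_apply, Submodule.Quotient.eq] at ha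
    obtain ⟨t, ht⟩ := ha
    have : v = a • v₀ - E.mulCanonLin c L (D.U₀ ⊓ D.U₁) t := by rw [ht]; abel
    rw [this]
    exact sub_mem (Submodule.smul_mem _ a hv₀) (himage t)
  · rw [if_neg hz] at f
    obtain ⟨i, -⟩ := finrank_coker_point c hE hc L hU
    have := Module.finrank_zero_iff.1 f
    obtain ⟨t, rfl⟩ := LinearMap.range_eq_top.1
      (Submodule.Quotient.subsingleton_iff.1 this) v
    exact himage t

lemma chi_mul_ptCls (ξ : Pic C) {z : C} (hc : IsClosed ({z} : Set C)) :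
    D.chi (ξ * ptCls z) = D.chi ξ + 1 := by
  obtain ⟨E, hE⟩ := exists_isPointDiv c hc
  obtain ⟨L, rfl⟩ := Pic.mk_surjective ξ
  rw [← hE.cls_eq_ptCls]
  exact D.chi_mul_point hE hc L

lemma h1_mul_ptCls (ξ : Pic C) {z : C} (hc : IsClosed ({z} : Set C)) (h : D.h1 ξ = 0) :
    D.h1 (ξ * ptCls z) = 0 := by
  obtain ⟨E, hE⟩ := exists_isPointDiv c hc
  obtain ⟨L, rfl⟩ := Pic.mk_surjective ξ
  rw [← hE.cls_eq_ptCls]
  exact (D.surjective_d_iff _).1 (D.surjective_mul_point hE hc L ((D.surjective_d_iff L).2 h))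

lemma chi_mul_prod (ξ : Pic C) (S : Multiset C) (hS : ∀ z ∈ S, IsClosed ({z} : Set C)) :
    D.chi (ξ * (S.map ptCls).prod) = D.chi ξ + S.card := by
  induction S using Multiset.induction_on with
  | empty => simp
  | cons a S ih =>
    rw [Multiset.map_cons, Multiset.prod_cons, mul_comm (ptCls a), ← mul_assoc,
      D.chi_mul_ptCls _ (hS a (Multiset.mem_cons_self a S)),
      ih fun z hz => hS z (Multiset.mem_cons_of_mem hz), Multiset.card_cons]
    push_cast
    ring

lemma h1_mul_prod (ξ : Pic C) (S : Multiset C) (hS : ∀ z ∈ S, IsClosed ({z} : Set C))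
    (h : D.h1 ξ = 0) : D.h1 (ξ * (S.map ptCls).prod) = 0 := by
  induction S using Multiset.induction_on with
  | empty => simpa using h
  | cons a S ih =>
    rw [Multiset.map_cons, Multiset.prod_cons, mul_comm (ptCls a), ← mul_assoc]
    exact D.h1_mul_ptCls _ (hS a (Multiset.mem_cons_self a S))
      (ih fun z hz => hS z (Multiset.mem_cons_of_mem hz))

@[simp] lemma deg_one : D.deg 1 = 0 := sub_self _

lemma deg_prod (S : Multiset C) (hS : ∀ z ∈ S, IsClosed ({z} : Set C)) :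
    D.deg (S.map ptCls).prod = S.card := by
  have := D.chi_mul_prod 1 S hS
  rw [one_mul] at this
  rw [deg, this]
  ring

lemma deg_ptCls {z : C} (hc : IsClosed ({z} : Set C)) : D.deg (ptCls z) = 1 := by
  have := D.chi_mul_ptCls 1 hc
  rw [one_mul] at this
  rw [deg, this]
  ring

omit [IsAlgClosed K] [SmoothOfRelativeDimension 1 c] in
include c in
theorem exists_isClosed_point : ∃ z : C, IsClosed ({z} : Set C) := by
  have : JacobsonSpace C := LocallyOfFiniteType.jacobsonSpace c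
  have : Nonempty C := inferInstance
  obtain ⟨z, -, hz⟩ := nonempty_inter_closedPoints (Z := (Set.univ : Set C)) Set.univ_nonempty
    isClosed_univ.isLocallyClosed
  exact ⟨z, hz⟩

/-- A class with a nonzero section is the class of `deg` points. -/
theorem exists_eq_prod_of_h0 (ξ : Pic C) (h : 0 < D.h0 ξ) :
    ∃ S : Multiset C, (∀ z ∈ S, IsClosed ({z} : Set C)) ∧ ξ = (S.map ptCls).prod ∧
      (S.card : ℤ) = D.deg ξ := by
  obtain ⟨L, rfl⟩ := Pic.mk_surjective ξ
  obtain ⟨s, hs⟩ := D.exists_sect_ne_zero h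
  obtain ⟨S, hS, hcls, -⟩ := (Sect.effDiv s hs).exists_eq_prod c D
  rw [Sect.cls_effDiv] at hcls
  exact ⟨S, hS, hcls, by rw [hcls, D.deg_prod S hS]⟩

lemma h0_pos_of_chi_pos {ξ : Pic C} (h : 0 < D.chi ξ) : 0 < D.h0 ξ := by
  have := D.chi_eq_sub ξ
  omega

lemma deg_nonneg_of_h0 {ξ : Pic C} (h : 0 < D.h0 ξ) : 0 ≤ D.deg ξ := by
  obtain ⟨S, -, -, hS⟩ := D.exists_eq_prod_of_h0 ξ h
  omega

lemma h0_eq_zero_of_deg_neg {ξ : Pic C} (h : D.deg ξ < 0) : D.h0 ξ = 0 :=
  Nat.eq_zero_of_not_pos fun hp => absurd (D.deg_nonneg_of_h0 hp) (not_le.2 h)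

/-- A class of degree zero with a nonzero section is trivial. -/
theorem eq_one_of_deg_eq_zero {ξ : Pic C} (hd : D.deg ξ = 0) (h : 0 < D.h0 ξ) : ξ = 1 := by
  obtain ⟨S, -, hξ, hS⟩ := D.exists_eq_prod_of_h0 ξ h
  rw [hd, Nat.cast_eq_zero, Multiset.card_eq_zero] at hS
  rw [hξ, hS, Multiset.map_zero, Multiset.prod_zero]

include D in
/-- Enough copies of a point make a class effective. -/
theorem exists_mul_eq_prod (ξ : Pic C) {z : C} (hc : IsClosed ({z} : Set C)) :
    ∃ (n : ℕ) (S : Multiset C), (∀ w ∈ S, IsClosed ({w} : Set C)) ∧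
      ξ * ptCls z ^ n = (S.map ptCls).prod := by
  refine ⟨(1 - D.chi ξ).toNat, ?_⟩
  have h := D.chi_mul_prod ξ (Multiset.replicate (1 - D.chi ξ).toNat z)
    fun w hw => Multiset.eq_of_mem_replicate hw ▸ hc
  rw [Multiset.map_replicate, Multiset.prod_replicate, Multiset.card_replicate] at h
  obtain ⟨S, hS, hξ, -⟩ := D.exists_eq_prod_of_h0 (ξ * ptCls z ^ (1 - D.chi ξ).toNat)
    (D.h0_pos_of_chi_pos (by rw [h]; omega))
  exact ⟨S, hS, hξ⟩

/-- The degree is additive. -/
theorem deg_mul (ξ η : Pic C) : D.deg (ξ * η) = D.deg ξ + D.deg η := by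
  obtain ⟨z, hz⟩ := exists_isClosed_point (c := c)
  obtain ⟨n, S, hS, hη⟩ := D.exists_mul_eq_prod η hz
  have hrep : ∀ w ∈ Multiset.replicate n z, IsClosed ({w} : Set C) := fun w hw =>
    Multiset.eq_of_mem_replicate hw ▸ hz
  have h1 := D.chi_mul_prod (ξ * η) _ hrep
  have h2 := D.chi_mul_prod η _ hrep
  rw [Multiset.map_replicate, Multiset.prod_replicate, Multiset.card_replicate] at h1 h2
  rw [mul_assoc, hη, D.chi_mul_prod ξ S hS] at h1
  have h3 := D.deg_prod S hS
  rw [hη] at h2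
  simp only [deg] at h3 ⊢
  omega

lemma deg_inv (ξ : Pic C) : D.deg ξ⁻¹ = -D.deg ξ := by
  have := D.deg_mul ξ ξ⁻¹
  rw [mul_inv_cancel, deg_one] at this
  omega

lemma deg_pow (ξ : Pic C) (n : ℕ) : D.deg (ξ ^ n) = n * D.deg ξ := by
  induction n with
  | zero => simp
  | succ n ih => rw [pow_succ, deg_mul, ih]; push_cast; ring

omit [IsIntegral C] [IsAlgClosed K] [SmoothOfRelativeDimension 1 c] [LocallyOfFiniteType c] in
lemma sect_one_ne_zero [Nonempty C] :
    ((oneEquiv (X := C)).symm 1 : (LineCocycle.one : LineCocycle C).Sect ⊤) ≠ 0 := by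
  rw [ne_eq, map_eq_zero_iff _ (oneEquiv (X := C)).symm.injective]
  intro h
  have h' := C.basicOpen_of_isUnit (U := ⊤) (isUnit_one : IsUnit (1 : Γ(C, ⊤)))
  rw [h, C.basicOpen_zero] at h'
  obtain ⟨z⟩ := ‹Nonempty C›
  exact (h'.ge (trivial : z ∈ (⊤ : C.Opens)) : z ∈ (⊥ : C.Opens))

/-- The functions on the curve are the constants. -/
theorem h0_one : D.h0 (1 : Pic C) = 1 := by
  rw [Pic.one_def, ← D.finrank_sect]
  let s₁ : Sec c (LineCocycle.one : LineCocycle C) ⊤ := (oneEquiv (X := C)).symm 1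
  refine finrank_eq_one s₁ sect_one_ne_zero fun s => ?_
  obtain ⟨z, hz⟩ := exists_isClosed_point (c := c)
  let a : Γ(C, ⊤) := oneEquiv (X := C) (show (LineCocycle.one : LineCocycle C).Sect ⊤ from s)
  obtain ⟨r, hr⟩ := exists_value c hz (show z ∈ (⊤ : C.Opens) from trivial) a
  refine ⟨r, ?_⟩
  suffices a = baseHom c ⊤ r by
    show baseHom c ⊤ r • (oneEquiv (X := C)).symm 1 = (show (LineCocycle.one : LineCocycle C).Sect ⊤ from s)
    rw [← map_smul, smul_eq_mul, mul_one, ← this]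
    exact (oneEquiv (X := C)).symm_apply_apply _
  by_contra hne
  let t : (LineCocycle.one : LineCocycle C).Sect ⊤ := (oneEquiv (X := C)).symm (a - baseHom c ⊤ r)
  have ht : t ≠ 0 := by
    rw [ne_eq, map_eq_zero_iff _ (oneEquiv (X := C)).symm.injective, sub_eq_zero]
    exact hne
  obtain ⟨S, hS, hcls, hzero⟩ := (Sect.effDiv t ht).exists_eq_prod c D
  rw [Sect.cls_effDiv] at hcls
  have hcard := D.deg_prod S hS
  rw [← hcls, ← Pic.one_def, deg_one, eq_comm, Nat.cast_eq_zero, Multiset.card_eq_zero] at hcard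
  have hmem := hzero z z trivial (by
    show z ∉ C.basicOpen (t.at z (V := (⊤ : C.Opens)) le_top le_rfl)
    rw [at_oneEquiv_symm]
    simpa using hr)
  rw [hcard] at hmem
  exact Multiset.notMem_zero z hmem

lemma chi_one : D.chi (1 : Pic C) = 1 - D.genus := by
  rw [chi_eq_sub, h0_one]
  rfl

/-- Riemann's theorem. -/
theorem riemannRoch (ξ : Pic C) : (D.h0 ξ : ℤ) - D.h1 ξ = D.deg ξ + 1 - D.genus := by
  rw [← chi_eq_sub, chi_eq_deg, chi_one]
  ring

/-- Degree zero classes come from `genus` points. -/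
theorem exists_eq_prod_div {ξ : Pic C} (hd : D.deg ξ = 0) {z : C} (hz : IsClosed ({z} : Set C)) :
    ∃ S : Multiset C, (∀ w ∈ S, IsClosed ({w} : Set C)) ∧ S.card = D.genus ∧
      ξ = (S.map ptCls).prod * (ptCls z ^ D.genus)⁻¹ := by
  have hdeg : D.deg (ξ * ptCls z ^ D.genus) = D.genus := by
    rw [deg_mul, hd, deg_pow, deg_ptCls D hz]; ring
  have hpos : 0 < D.h0 (ξ * ptCls z ^ D.genus) := by
    have := D.riemannRoch (ξ * ptCls z ^ D.genus)
    omega
  obtain ⟨S, hS, hξ, hcard⟩ := D.exists_eq_prod_of_h0 _ hpos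
  refine ⟨S, hS, by omega, ?_⟩
  rw [← hξ, mul_inv_cancel_right]

/-- Removing a point outside a finite set drops the number of sections. -/
theorem exists_finite_h0_div_lt {ξ : Pic C} (h : 0 < D.h0 ξ) :
    ∃ Z : Finset C, ∀ w ∉ Z, IsClosed ({w} : Set C) → D.h0 (ξ * (ptCls w)⁻¹) < D.h0 ξ := by
  classical
  obtain ⟨N, rfl⟩ := Pic.mk_surjective ξ
  obtain ⟨s, hs⟩ := D.exists_sect_ne_zero h
  obtain ⟨S, -, -, hzero⟩ := (Sect.effDiv s hs).exists_eq_prod c D
  refine ⟨S.toFinset, fun w hw hc => ?_⟩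
  obtain ⟨P, hP⟩ := exists_isPointDiv c hc
  let L := N.mul P.cocycle.inv
  have hcls : Pic.mk N = Pic.mk (L.mul P.cocycle) := by
    show _ = Pic.mk N * (Pic.mk P.cocycle)⁻¹ * Pic.mk P.cocycle
    rw [inv_mul_cancel_right]
  obtain ⟨e⟩ := Pic.mk_eq_mk.1 hcls
  have hL : Pic.mk N * (ptCls w)⁻¹ = Pic.mk L := by rw [← hP.cls_eq_ptCls]; rfl
  rw [hL, ← D.finrank_sect, ← D.finrank_sect]
  have := D.finiteDimensional_sect (L.mul P.cocycle)
  have hN : Module.finrank K (Sec c N ⊤) = Module.finrank K (Sec c (L.mul P.cocycle) ⊤) := by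
    rw [D.finrank_sect, D.finrank_sect, hcls]
  rw [hN, ← LinearMap.finrank_range_of_inj (f := P.mulCanonLin c L ⊤) (P.mulCanon_injective L ⊤)]
  refine Submodule.finrank_lt fun htop => ?_
  obtain ⟨t, ht⟩ := (htop ▸ Submodule.mem_top :
    (show Sec c (L.mul P.cocycle) ⊤ from e.sectMap s) ∈ LinearMap.range (P.mulCanonLin c L ⊤))
  let V : C.Opens := (⊤ ⊓ e.V w) ⊓ P.V w
  have hwV : w ∈ V := ⟨⟨trivial, e.mem w⟩, P.mem w⟩
  have h1 := congrArg (fun r : (L.mul P.cocycle).Sect ⊤ => r.at w (V := V) le_top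
    ((inf_le_left.trans inf_le_right).trans (e.leM w))) ht
  simp only [EffDiv.mulCanonLin_apply] at h1
  erw [e.at_sectMap s w le_top (inf_le_left.trans inf_le_right)] at h1
  have hnz : w ∈ C.basicOpen (s.at w (V := V) le_top ((inf_le_left.trans inf_le_right).trans (e.leL w))) := by
    by_contra hcon
    refine hw (Multiset.mem_toFinset.2 (hzero w w (N.mem w) fun hmem => hcon ?_))
    rw [← Sect.res_at s w le_top le_rfl ((inf_le_left.trans inf_le_right).trans (e.leL w)),
      mem_basicOpen_res _ hwV]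
    exact hmem
  refine hP.notMem_basicOpen_eqn (inf_le_right : V ≤ P.V w) hwV (mem_basicOpen_of_dvd ?_
    (mem_basicOpen_mul.2 ⟨(isUnit_iff_forall_mem_basicOpen.1 (e.isUnit_unitAt w
      (inf_le_left.trans inf_le_right : V ≤ e.V w))) w hwV, hnz⟩))
  rw [← h1]
  show _ ∣ (Sect.mul (show L.Sect ⊤ from t) (P.canon ⊤)).at w _ _
  rw [Sect.at_mul', EffDiv.at_canon]
  exact dvd_mul_left _ _

end CurveChart

end field

end Fermat.Agent.Jacobian
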