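import Fermat.Agent.Jacobian.Cech.Acyclic
import Fermat.Agent.Jacobian.Divisor.AffineIdeal
import Fermat.Agent.Jacobian.SectMul
import Fermat.Agent.Jacobian.PatchedModule.Twist

/-!
# The divisor at infinity of a two-chart curve, and twists of the Čech complex

`D.infDiv m` has equation `1` on `U₀` and `y ^ m` on `U₁`.  The Čech complex of `L(m·∞)` is the
`m`-th twist of that of `L`; so large twists by the divisor at infinity have no `H¹`, and they
raise the Euler characteristic by `dim M₁/y^m M₁`.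
-/

set_option autoImplicit false

noncomputable section

universe u

open CategoryTheory TopologicalSpace AlgebraicGeometry nonZeroDivisors Polynomial

namespace Fermat.Agent.Jacobian

/-! ### Frames and canonical sections -/

namespace EffDiv

variable {X : Scheme.{u}} (D : EffDiv X)

/-- The canonical section divided by a common divisor of the equations. -/
theorem exists_smul_eq_canon {W : X.Opens} (g : Γ(X, W))
    (hg : ∀ (V : X.Opens) (h : V ≤ W), res h g ∈ Γ(X, V)⁰)
    (hdvd : ∀ x (V : X.Opens) (hW : V ≤ W) (hx : V ≤ D.V x), res hW g ∣ D.eqn x hx) :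
    ∃ σ : D.cocycle.Sect W, g • σ = D.canon W := by
  choose a ha using fun x => hdvd x (W ⊓ D.V x) inf_le_left inf_le_right
  refine ⟨LineCocycle.Sect.mk a fun x y V hW hx hy => ?_, LineCocycle.Sect.ext' fun x => ?_⟩
  · refine (mul_cancel_left_mem_nonZeroDivisors (hg V hW)).1 ?_
    have h1 := congrArg (res (le_inf hW hx)) (ha x)
    have h2 := congrArg (res (le_inf hW hy)) (ha y)
    simp only [map_mul, res_res, res_eqn] at h1 h2
    rw [← h1, ← D.tr_mul_eqn x y hx hy, h2, mul_left_comm]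
  · rw [LineCocycle.Sect.at_smul, LineCocycle.Sect.at_mk, res_refl, at_canon]
    exact (ha x).symm

/-- Dividing by a multiple of all the equations gives a frame. -/
theorem isFrame_of_smul_eq_canon {W : X.Opens} (g : Γ(X, W)) {σ : D.cocycle.Sect W}
    (hσ : g • σ = D.canon W)
    (hdvd : ∀ x (V : X.Opens) (hW : V ≤ W) (hx : V ≤ D.V x), D.eqn x hx ∣ res hW g) :
    σ.IsFrame := fun x => by
  obtain ⟨q, hq⟩ := hdvd x (W ⊓ D.V x) inf_le_left inf_le_right
  refine IsUnit.of_mul_eq_one q ((mul_cancel_left_mem_nonZeroDivisors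
    (D.eqn_mem_nonZeroDivisors x (W := W ⊓ D.V x) inf_le_right)).1 ?_)
  have h1 := congrArg (fun t : D.cocycle.Sect W =>
    t.at x (V := W ⊓ D.V x) inf_le_left inf_le_right) hσ
  simp only [LineCocycle.Sect.at_smul, at_canon] at h1
  rw [mul_one]
  conv_rhs => rw [← h1, hq]
  ring

end EffDiv

namespace LineCocycle.Sect

variable {X : Scheme.{u}} {L M : LineCocycle X} {W : X.Opens}

/-- Multiplication by a frame is bijective. -/
theorem IsFrame.bijective_mul {t : M.Sect W} (ht : t.IsFrame) :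
    Function.Bijective fun s : L.Sect W => s.mul t := by
  have hex : ∀ n : (L.mul M).Sect W, ∃! s : L.Sect W, s.mul t = n := fun n =>
    existsUnique_mul_eq t (fun x O hW hx => (ht.isUnit_at x hW hx).mem_nonZeroDivisors) n
      fun x => (ht.isUnit_at x _ _).dvd
  exact ⟨fun s s' h => (hex _).unique rfl h.symm, fun n => (hex n).exists⟩

lemma mul_smul_left (r : Γ(X, W)) (s : L.Sect W) (t : M.Sect W) :
    (r • s).mul t = r • s.mul t :=
  (mulRight t).map_smul r s

lemma mul_smul_right (r : Γ(X, W)) (s : L.Sect W) (t : M.Sect W) :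
    s.mul (r • t) = r • s.mul t :=
  ext' fun x => by simp [mul_left_comm]

end LineCocycle.Sect

namespace CurveChart

variable {k : Type u} [CommRing k] {C : Scheme.{u}} {c : C ⟶ Spec (CommRingCat.of k)}
  (D : CurveChart c)

/-- `y` is regular on every open of `U₁`. -/
theorem res_y_pow_mem_nonZeroDivisors (m : ℕ) {W : C.Opens} (h : W ≤ D.U₁) :
    res h (D.y ^ m) ∈ Γ(C, W)⁰ := by
  rw [map_pow]
  refine pow_mem ?_ m
  refine IsLocGen.res_mem_nonZeroDivisors (I := Ideal.span {D.y}) (s := 1) D.affine₁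
    ⟨Ideal.mem_span_singleton_self _, fun a ha => ?_, fun b hb => ⟨0, ?_⟩⟩ h ?_
  · rw [one_mul]
    exact Ideal.mem_span_singleton.mp ha
  · let _a : Module k[X] Γ(C, D.U₁) := (lineHom c D.y).toModule
    have _f : Module.Free k[X] Γ(C, D.U₁) := D.free₁
    rw [pow_zero, one_mul]
    refine eq_zero_of_X_pow_smul (k := k) (n := 1) (M := Γ(C, D.U₁)) ?_
    show lineHom c D.y (X ^ 1) * b = 0
    rw [pow_one, show lineHom c D.y X = D.y by simp [lineHom]]
    exact hb
  · rw [Scheme.basicOpen_of_isUnit _ isUnit_one]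
    exact h

open scoped Classical in
/-- `m` times the divisor at infinity. -/
def infDiv (m : ℕ) : EffDiv C where
  V z := if z ∈ D.U₀ then D.U₀ else D.U₁
  mem z := by
    split_ifs with h
    · exact h
    · exact ((D.cover.ge (Set.mem_univ z) : z ∈ D.U₀ ⊔ D.U₁)).resolve_left h
  f z := if h : z ∈ D.U₀ then 1 else res (le_of_eq (if_neg h)) (D.y ^ m)
  dvd x y W hx hy := by
    by_cases h : y ∈ D.U₀
    · rw [dif_pos h, map_one]; exact one_dvd _
    · rw [dif_neg h, res_res]
      by_cases h' : x ∈ D.U₀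
      · refine IsUnit.dvd ?_
        rw [map_pow]
        refine IsUnit.pow m ?_
        have hle : W ≤ D.U₀ ⊓ D.U₁ := le_inf (hx.trans (le_of_eq (if_pos h')))
          (hy.trans (le_of_eq (if_neg h)))
        exact isUnit_res_of_mem_basicOpen D.y _ (hle.trans D.inf_eq₁.le)
      · rw [dif_neg h', res_res]
  regular x W h := by
    by_cases h' : x ∈ D.U₀
    · rw [dif_pos h', map_one]; exact one_mem _
    · rw [dif_neg h', res_res]
      exact D.res_y_pow_mem_nonZeroDivisors m _

/-- The class of `O(m·∞)`. -/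
def infCls (m : ℕ) : Pic C := (D.infDiv m).cls

lemma eqn_infDiv_of_mem (m : ℕ) {z : C} (hz : z ∈ D.U₀) {W : C.Opens}
    (h : W ≤ (D.infDiv m).V z) : (D.infDiv m).eqn z h = 1 := by
  rw [EffDiv.eqn]
  simp only [infDiv, dif_pos hz]
  exact (res h).map_one

lemma eqn_infDiv_of_not_mem (m : ℕ) {z : C} (hz : z ∉ D.U₀) {W : C.Opens}
    (h : W ≤ (D.infDiv m).V z) (h₁ : W ≤ D.U₁) :
    (D.infDiv m).eqn z h = res h₁ (D.y ^ m) := by
  rw [EffDiv.eqn]
  simp only [infDiv, dif_neg hz]
  exact res_res _ _ _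

lemma infDiv_le_U₁ (m : ℕ) {z : C} (hz : z ∉ D.U₀) : (D.infDiv m).V z ≤ D.U₁ :=
  le_of_eq (if_neg hz)

lemma infDiv_le_U₀ (m : ℕ) {z : C} (hz : z ∈ D.U₀) : (D.infDiv m).V z ≤ D.U₀ :=
  le_of_eq (if_pos hz)

theorem isUnit_res_y {W : C.Opens} (h₀ : W ≤ D.U₀) (h₁ : W ≤ D.U₁) : IsUnit (res h₁ D.y) :=
  isUnit_res_of_mem_basicOpen D.y _ ((le_inf h₀ h₁).trans D.inf_eq₁.le)

/-- The canonical section is a frame off infinity. -/
theorem isFrame_canon_infDiv (m : ℕ) : ((D.infDiv m).canon D.U₀).IsFrame := fun x => by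
  rw [EffDiv.at_canon]
  by_cases hx : x ∈ D.U₀
  · rw [D.eqn_infDiv_of_mem m hx]
    exact isUnit_one
  · rw [D.eqn_infDiv_of_not_mem m hx _ (inf_le_right.trans (D.infDiv_le_U₁ m hx)), map_pow]
    exact (D.isUnit_res_y inf_le_left _).pow m

/-- `O(m·∞)` has a frame `σ` on `U₁` with `y^m σ` the canonical section. -/
theorem exists_frame_infDiv (m : ℕ) : ∃ σ : (D.infDiv m).cocycle.Sect D.U₁,
    σ.IsFrame ∧ D.y ^ m • σ = (D.infDiv m).canon D.U₁ := by
  have h : ∀ x (W : C.Opens) (hW : W ≤ D.U₁) (hx : W ≤ (D.infDiv m).V x),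
      Associated (res hW (D.y ^ m)) ((D.infDiv m).eqn x hx) := by
    intro x W hW hx
    by_cases hm : x ∈ D.U₀
    · rw [D.eqn_infDiv_of_mem m hm, map_pow]
      exact associated_one_iff_isUnit.2
        ((D.isUnit_res_y (hx.trans (D.infDiv_le_U₀ m hm)) hW).pow m)
    · rw [D.eqn_infDiv_of_not_mem m hm hx hW]
  obtain ⟨σ, hσ⟩ := (D.infDiv m).exists_smul_eq_canon (D.y ^ m)
    (fun W hW => D.res_y_pow_mem_nonZeroDivisors m hW) fun x W hW hx => (h x W hW hx).dvd
  exact ⟨σ, (D.infDiv m).isFrame_of_smul_eq_canon _ hσ fun x W hW hx => (h x W hW hx).symm.dvd, hσ⟩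

/-- **Twisting the complex is twisting the bundle by the divisor at infinity.** -/
def twistIso (L : LineCocycle C) (m : ℕ) :
    PatchedModule.ChartIso ((D.cech L).twist m) (D.cech (L.mul (D.infDiv m).cocycle)) where
  e₀ :=
    { toFun := fun s => LineCocycle.Sect.mul (L := L) s ((D.infDiv m).canon D.U₀)
      map_add' := fun s t => map_add
        (LineCocycle.Sect.mulRight (L := L) ((D.infDiv m).canon D.U₀)) s t
      map_smul' := fun a s => LineCocycle.Sect.mul_smul_left (L := L) (baseHom c D.U₀ a) s _ }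
  e₁ :=
    { toFun := fun s => LineCocycle.Sect.mul (L := L) s (D.exists_frame_infDiv m).choose
      map_add' := fun s t => map_add
        (LineCocycle.Sect.mulRight (L := L) (D.exists_frame_infDiv m).choose) s t
      map_smul' := fun a s => LineCocycle.Sect.mul_smul_left (L := L) (baseHom c D.U₁ a) s _ }
  e :=
    { toFun := fun s => LineCocycle.Sect.mul (L := L) s ((D.infDiv m).canon (D.U₀ ⊓ D.U₁))
      map_add' := fun s t => map_add
        (LineCocycle.Sect.mulRight (L := L) ((D.infDiv m).canon (D.U₀ ⊓ D.U₁))) s t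
      map_smul' := fun a s =>
        LineCocycle.Sect.mul_smul_left (L := L) (baseHom c (D.U₀ ⊓ D.U₁) a) s _ }
  e_r₀ n := by
    show LineCocycle.Sect.mul (L := L) (LineCocycle.Sect.restrict inf_le_left n) _ =
      LineCocycle.Sect.restrict inf_le_left
        (LineCocycle.Sect.mul (L := L) n ((D.infDiv m).canon D.U₀))
    rw [LineCocycle.Sect.restrict_mul, EffDiv.restrict_canon]
  e_r₁ n := by
    obtain ⟨-, hσ⟩ := (D.exists_frame_infDiv m).choose_spec
    set σ := (D.exists_frame_infDiv m).choose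
    show LineCocycle.Sect.mul (L := L)
        ((Sec.mulEquiv (c := c) D.x₀₁ D.y₀₁ D.mul_eq ^ m)
          (LineCocycle.Sect.restrict inf_le_right n)) _ =
      LineCocycle.Sect.restrict inf_le_right (LineCocycle.Sect.mul (L := L) n σ)
    rw [Sec.mulEquiv_pow, ← EffDiv.restrict_canon (D.infDiv m) inf_le_right, ← hσ,
      LineCocycle.Sect.restrict_smul, LineCocycle.Sect.restrict_mul]
    refine (LineCocycle.Sect.mul_smul_left (L := L) (D.x₀₁ ^ m) _ _).trans ?_
    rw [LineCocycle.Sect.mul_smul_right, ← mul_smul, map_pow, ← mul_pow]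
    show (D.x₀₁ * D.y₀₁) ^ m • _ = _
    rw [show D.x₀₁ * D.y₀₁ = 1 from D.mul_eq, one_pow, one_smul]
  e_X v := LineCocycle.Sect.mul_smul_left (L := L) D.x₀₁ v _
  bij₀ := (D.isFrame_canon_infDiv m).bijective_mul
  bij₁ := (D.exists_frame_infDiv m).choose_spec.1.bijective_mul

/-- **Large twists by the divisor at infinity have no `H¹`.** -/
theorem exists_surjective_d_mul_infDiv (L : LineCocycle C) :
    ∃ N : ℕ, ∀ m, N ≤ m → Function.Surjective (D.cech (L.mul (D.infDiv m).cocycle)).d := by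
  obtain ⟨N, hN⟩ := (D.cech L).exists_twist_surjective
  exact ⟨N, fun m hm => (D.twistIso L m).surjective_d_iff.mpr (hN m hm)⟩

/-- The same, for classes. -/
theorem exists_surjective_d_of_mul_infCls (ξ : Pic C) :
    ∃ N : ℕ, ∀ m, N ≤ m → ∀ M : LineCocycle C, Pic.mk M = ξ * D.infCls m →
      Function.Surjective (D.cech M).d := by
  obtain ⟨L, rfl⟩ := Pic.mk_surjective ξ
  obtain ⟨N, hN⟩ := D.exists_surjective_d_mul_infDiv L
  refine ⟨N, fun m hm M hM => ?_⟩
  rw [infCls, EffDiv.cls, Pic.mk_mul] at hM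
  obtain ⟨e⟩ := Pic.mk_eq_mk.mp hM.symm
  exact (D.cechIso e).surjective_d_iff.mpr (hN m hm)

theorem infCls_zero : D.infCls 0 = 1 := EffDiv.cls_eq_one _ fun x => by
  by_cases hx : x ∈ D.U₀
  · simp only [infDiv, dif_pos hx]
    exact isUnit_one
  · simp only [infDiv, dif_neg hx, pow_zero, map_one]
    exact isUnit_one

end CurveChart

section field

variable {k : Type u} [Field k]

/-- The Euler characteristic of a twist. -/
theorem PatchedModule.chi_twist {M₀ M₁ M₀₁ : Type u} [AddCommGroup M₀] [Module k M₀]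
    [AddCommGroup M₁] [Module k M₁] [AddCommGroup M₀₁] [Module k M₀₁]
    (P : PatchedModule k M₀ M₁ M₀₁) (m : ℕ) :
    (P.twist m).chi = P.chi + Module.finrank k (M₁ ⧸ LinearMap.range (P.y ^ m)) := by
  have h₀ : LinearMap.range (LinearMap.id : M₀ →ₗ[k] M₀) = ⊤ := LinearMap.range_id
  have h : LinearMap.range (LinearMap.id : M₀₁ →ₗ[k] M₀₁) = ⊤ := LinearMap.range_id
  have := P.finite_quotient_pow m
  have s₀ : Subsingleton (M₀ ⧸ LinearMap.range (LinearMap.id : M₀ →ₗ[k] M₀)) :=
    Submodule.Quotient.subsingleton_iff.mpr h₀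
  have s : Subsingleton (M₀₁ ⧸ LinearMap.range (LinearMap.id : M₀₁ →ₗ[k] M₀₁)) :=
    Submodule.Quotient.subsingleton_iff.mpr h
  have e := P.chi_add_of_injective (P.twist m) LinearMap.id (P.y ^ m) LinearMap.id
    (fun _ => rfl) (fun n => LinearMap.congr_fun
      (show P.r₁ = (P.twist m).r₁ ∘ₗ (P.y ^ m) from LinearMap.ext fun n => by
        show P.r₁ n = (P.X ^ m) (P.r₁ ((P.y ^ m) n))
        rw [P.r₁_pow]
        exact (P.lattices.pow_symm_pow m _).symm) n)
    Function.injective_id (Function.LeftInverse.injective (g := P.twistInv m) (P.twistInv_pow m))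
    Function.injective_id
  rw [Module.finrank_zero_of_subsingleton (R := k)
      (M := M₀ ⧸ LinearMap.range (LinearMap.id : M₀ →ₗ[k] M₀)),
    Module.finrank_zero_of_subsingleton (R := k)
      (M := M₀₁ ⧸ LinearMap.range (LinearMap.id : M₀₁ →ₗ[k] M₀₁))] at e
  push_cast at e
  linarith

variable {C : Scheme.{u}} {c : C ⟶ Spec (CommRingCat.of k)} (D : CurveChart c)

/-- The Euler characteristic of a twist by the divisor at infinity. -/
theorem CurveChart.chi_mul_infDiv (L : LineCocycle C) (m : ℕ) :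
    (D.cech (L.mul (D.infDiv m).cocycle)).chi =
      (D.cech L).chi + Module.finrank k
        (Sec c L D.U₁ ⧸ LinearMap.range ((D.cech L).y ^ m)) := by
  show (D.cech (L.mul (D.infDiv m).cocycle)).d.index = _
  rw [(D.twistIso L m).index_eq]
  exact (D.cech L).chi_twist m

end field

end Fermat.Agent.Jacobian
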