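import Fermat.Agent.Jacobian.RiemannRoch.Degree
import Fermat.Agent.Jacobian.RiemannRoch.Infinity

/-!
# Vanishing of `H¹` in large degree
-/

set_option autoImplicit false

noncomputable section

universe u

open CategoryTheory AlgebraicGeometry

namespace Fermat.Agent.Jacobian

namespace CurveChart

variable {K : Type u} [Field K] {C : Scheme.{u}} {c : C ⟶ Spec (CommRingCat.of K)}
  (D : CurveChart c) [IsIntegral C] [IsAlgClosed K] [SmoothOfRelativeDimension 1 c]
  [LocallyOfFiniteType c]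

omit [IsIntegral C] [IsAlgClosed K] [SmoothOfRelativeDimension 1 c] [LocallyOfFiniteType c] in
/-- Every class has no `H¹` after a large twist by the divisor at infinity. -/
theorem exists_h1_mul_infCls_eq_zero (ξ : Pic C) :
    ∃ N : ℕ, ∀ m, N ≤ m → D.h1 (ξ * D.infCls m) = 0 := by
  obtain ⟨N, hN⟩ := D.exists_surjective_d_of_mul_infCls ξ
  refine ⟨N, fun m hm => ?_⟩
  obtain ⟨M, hM⟩ := Pic.mk_surjective (ξ * D.infCls m)
  rw [← hM]
  exact (D.surjective_d_iff M).1 (hN m hm M hM)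

/-- A multiple of a class without `H¹` by an effective class has no `H¹`. -/
theorem h1_mul_eq_zero_of_h0 {ξ η : Pic C} (hξ : D.h1 ξ = 0) (hη : 0 < D.h0 η) :
    D.h1 (ξ * η) = 0 := by
  obtain ⟨S, hS, rfl, -⟩ := D.exists_eq_prod_of_h0 η hη
  exact D.h1_mul_prod ξ S hS hξ

/-- **Classes of large degree have no `H¹`.** -/
theorem exists_h1_eq_zero_of_deg :
    ∃ M₀ : ℤ, ∀ ξ : Pic C, M₀ ≤ D.deg ξ → D.h1 ξ = 0 := by
  obtain ⟨m, hm⟩ := D.exists_h1_mul_infCls_eq_zero 1
  have hE : D.h1 (D.infCls m) = 0 := by simpa only [one_mul] using hm m le_rfl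
  refine ⟨D.deg (D.infCls m) + D.genus, fun ξ hξ => ?_⟩
  have hη : 0 < D.h0 ((D.infCls m)⁻¹ * ξ) := by
    have := D.riemannRoch ((D.infCls m)⁻¹ * ξ)
    rw [deg_mul, deg_inv] at this
    omega
  have := D.h1_mul_eq_zero_of_h0 hE hη
  rwa [mul_inv_cancel_left] at this

/-- In large degree the Čech differential is surjective. -/
theorem exists_surjective_d_of_deg :
    ∃ M₀ : ℤ, ∀ L : LineCocycle C, M₀ ≤ D.deg (Pic.mk L) → Function.Surjective (D.cech L).d := by
  obtain ⟨M₀, hM₀⟩ := D.exists_h1_eq_zero_of_deg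
  exact ⟨M₀, fun L hL => (D.surjective_d_iff L).2 (hM₀ _ hL)⟩

end CurveChart

end Fermat.Agent.Jacobian
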