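import Fermat.Agent.Jacobian.RiemannRoch.Degree
import Fermat.Agent.Jacobian.RiemannRoch.Vanishing
import Fermat.Agent.Jacobian.Represent.DegreeFibre

/-!
# Degree comparisons; infinitely many closed points
-/

set_option autoImplicit false

noncomputable section

universe u

open CategoryTheory TopologicalSpace AlgebraicGeometry

namespace Fermat.Agent.Jacobian

variable {K : Type u} [Field K] {C : Scheme.{u}} {c : C ⟶ Spec (CommRingCat.of K)}
  (D : CurveChart c)

namespace CurveChart

/-- The two definitions of the degree agree. -/
theorem chiDeg_eq_deg (ξ : Pic C) : D.chiDeg ξ = D.deg ξ := by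
  obtain ⟨L, rfl⟩ := Pic.mk_surjective ξ
  rfl

/-- A class is acyclic iff `h⁰` and `h¹` vanish. -/
theorem acyclicClass_iff_h0_h1 (ξ : Pic C) :
    D.AcyclicClass ξ ↔ D.h0 ξ = 0 ∧ D.h1 ξ = 0 := by
  obtain ⟨L, rfl⟩ := Pic.mk_surjective ξ
  rw [D.acyclicClass_mk_iff, D.bijective_d_iff]

variable [IsIntegral C] [IsAlgClosed K] [SmoothOfRelativeDimension 1 c] [LocallyOfFiniteType c]

include c in
/-- There are infinitely many closed points. -/
theorem infinite_closedPoints : (closedPoints C).Infinite := by
  intro hfin
  have : JacobsonSpace C := LocallyOfFiniteType.jacobsonSpace c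
  have hcl : IsClosed (closedPoints C) := by
    rw [← Set.biUnion_of_singleton (closedPoints C)]
    exact hfin.isClosed_biUnion fun x hx => hx
  have hgen : genericPoint C ∈ closedPoints C := by
    rw [← hcl.closure_eq, closure_closedPoints]
    trivial
  exact not_isClosed_genericPoint c hgen

end CurveChart

end Fermat.Agent.Jacobian
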