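import Fermat.Agent.Jacobian.Cech.Acyclic
import Fermat.Agent.Jacobian.Divisor.EffDiv
import Mathlib.AlgebraicGeometry.Morphisms.UniversallyOpen
import Mathlib.AlgebraicGeometry.Morphisms.FiniteType
import Mathlib.Topology.JacobsonSpace

/-!
# Removing a rational point from a class

A nonzero section of a line bundle on `C_K` is nonzero at some point over a closed point `P` of `C`;
twisting down by the canonical section of a divisor through `P` then loses a global section.
-/

set_option autoImplicit false

noncomputable section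

universe u

open CategoryTheory AlgebraicGeometry TensorProduct

namespace Fermat.Agent.Jacobian

section sect

variable {X : Scheme.{u}} {L M : LineCocycle X} {W : X.Opens}

/-- A section does not vanish at a point. -/
def LineCocycle.Sect.NonvanishingAt (s : L.Sect W) (z : X) : Prop :=
  ∃ (x : X) (V : X.Opens) (hW : V ≤ W) (hx : V ≤ L.U x) (hz : z ∈ V),
    IsUnit (X.presheaf.germ V z hz (s.at x hW hx))

/-- A section is regular in every trivialisation. -/
def LineCocycle.Sect.IsRegularSect (s : L.Sect W) : Prop :=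
  ∀ (x : X) (V : X.Opens) (hW : V ≤ W) (hx : V ≤ L.U x),
    s.at x hW hx ∈ nonZeroDivisors Γ(X, V)

lemma germ_res {U V : X.Opens} (h : V ≤ U) (z : X) (hz : z ∈ V) (a : Γ(X, U)) :
    X.presheaf.germ V z hz (res h a) = X.presheaf.germ U z (h hz) a :=
  X.presheaf.germ_res_apply (homOfLE h) z hz a

/-- Nonvanishing can be read in any trivialisation. -/
theorem LineCocycle.Sect.NonvanishingAt.isUnit_germ {s : L.Sect W} {z : X}
    (h : s.NonvanishingAt z) (y : X) {V : X.Opens} (hW : V ≤ W) (hy : V ≤ L.U y) (hz : z ∈ V) :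
    IsUnit (X.presheaf.germ V z hz (s.at y hW hy)) := by
  obtain ⟨x, V', hW', hx, hz', hu⟩ := h
  rw [← germ_res (inf_le_left : V ⊓ V' ≤ V) z ⟨hz, hz'⟩, LineCocycle.Sect.res_at,
    LineCocycle.Sect.at_eq s y x _ _ (inf_le_right.trans hx), map_mul,
    ← LineCocycle.Sect.res_at s x hW' hx (inf_le_right : V ⊓ V' ≤ V'), germ_res]
  exact ((L.isUnit_tr y x _ _).map _).mul hu

/-- A nonzero section of a line bundle on a reduced scheme is nonzero on a nonempty open. -/
theorem exists_open_nonvanishing [IsReduced X] {s : L.Sect W} (hs : s ≠ 0) :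
    ∃ N : X.Opens, (N : Set X).Nonempty ∧ ∀ z ∈ N, s.NonvanishingAt z := by
  obtain ⟨x, hx⟩ : ∃ x, s.at x (V := W ⊓ L.U x) inf_le_left inf_le_right ≠ 0 := by
    by_contra hcon
    push Not at hcon
    exact hs (LineCocycle.Sect.ext' fun x => by rw [hcon x, LineCocycle.Sect.at_zero])
  refine ⟨X.basicOpen (s.at x (V := W ⊓ L.U x) inf_le_left inf_le_right), ?_, fun z hz =>
    ⟨x, W ⊓ L.U x, inf_le_left, inf_le_right, X.basicOpen_le _ hz,
      (Scheme.mem_basicOpen _ _ z _).mp hz⟩⟩
  rw [Set.nonempty_iff_ne_empty, Ne, ← TopologicalSpace.Opens.coe_bot, SetLike.coe_set_eq,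
    basicOpen_eq_bot_iff]
  exact hx

end sect

section mulLeft

variable {k : Type u} [Field k] {C : Scheme.{u}} {c : C ⟶ Spec (CommRingCat.of k)}
  (D : CurveChart c) {L M : LineCocycle C}

/-- Multiplication by a fixed section of another line bundle. -/
def secMul (t : M.Sect ⊤) (W : C.Opens) : Sec c L W →ₗ[k] Sec c (L.mul M) W where
  toFun s := LineCocycle.Sect.mul (L := L) s (t.restrict le_top)
  map_add' s s' := LineCocycle.Sect.ext' (L := L.mul M) fun x => by
    refine (LineCocycle.Sect.at_mul' (L := L) _ _ x _ _).trans ?_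
    refine Eq.trans ?_ (LineCocycle.Sect.at_add _ _ x _ _).symm
    refine Eq.trans ?_ (congrArg₂ (· + ·) (LineCocycle.Sect.at_mul' (L := L) s _ x _ _)
      (LineCocycle.Sect.at_mul' (L := L) s' _ x _ _)).symm
    exact (congrArg (· * _) (LineCocycle.Sect.at_add (L := L) s s' x _ _)).trans (add_mul _ _ _)
  map_smul' a s := LineCocycle.Sect.ext' (L := L.mul M) fun x => by
    refine (LineCocycle.Sect.at_mul' (L := L) _ _ x _ _).trans ?_
    refine Eq.trans ?_ (LineCocycle.Sect.at_smul (L := L.mul M) (baseHom c W a) _ x _ _).symm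
    refine Eq.trans ?_ (congrArg (_ * ·) (LineCocycle.Sect.at_mul' (L := L) s _ x _ _)).symm
    exact (congrArg (· * _)
      (LineCocycle.Sect.at_smul (L := L) (baseHom c W a) s x _ _)).trans (mul_assoc _ _ _)

lemma at_secMul (t : M.Sect ⊤) {W : C.Opens} (s : Sec c L W) (x : C) {V : C.Opens} (hW : V ≤ W)
    (hx : V ≤ (L.mul M).U x) :
    LineCocycle.Sect.at (L := L.mul M) (secMul t W s) x hW hx =
      LineCocycle.Sect.at (L := L) s x hW (hx.trans inf_le_left) *
        t.at x le_top (hx.trans inf_le_right) := by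
  refine (LineCocycle.Sect.at_mul' (L := L) s (t.restrict le_top) x hW hx).trans ?_
  rw [LineCocycle.Sect.at_restrict]

lemma restrict_secMul (t : M.Sect ⊤) {W W' : C.Opens} (h : W' ≤ W) (s : Sec c L W) :
    Sec.resLin h (secMul t W s) = secMul t W' (Sec.resLin h s) := by
  refine LineCocycle.Sect.ext' (L := L.mul M) fun x => ?_
  show (LineCocycle.Sect.restrict (L := L.mul M) h (secMul t W s)).at x _ _ = _
  rw [LineCocycle.Sect.at_restrict, at_secMul, at_secMul]
  exact congrArg (· * _) (LineCocycle.Sect.at_restrict (L := L) h s x _ _).symm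

lemma injective_secMul {t : M.Sect ⊤} (ht : t.IsRegularSect) (W : C.Opens) :
    Function.Injective (secMul (c := c) (L := L) t W) := fun s s' h => by
  refine LineCocycle.Sect.ext_of_cover (L := L) (fun x => W ⊓ (L.mul M).U x)
    (fun _ => inf_le_left) (fun z hz => ⟨z, hz, (L.mul M).mem z⟩) (fun x => x)
    (fun x => inf_le_right.trans inf_le_left) fun x => ?_
  have := congrArg (fun r : (L.mul M).Sect W =>
    r.at x (V := W ⊓ (L.mul M).U x) inf_le_left inf_le_right) h
  simp only [at_secMul] at this
  exact (mul_cancel_right_mem_nonZeroDivisors (ht x _ le_top _)).mp this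

/-- Multiplication by a section on `H⁰`. -/
def h0Mul (t : M.Sect ⊤) : (D.cech L).H0 →ₗ[k] (D.cech (L.mul M)).H0 :=
  ((secMul t D.U₀).prodMap (secMul t D.U₁)).restrict fun z hz => by
    rw [LinearMap.mem_ker, PatchedModule.d_apply, sub_eq_zero] at hz ⊢
    show Sec.resLin inf_le_left (secMul t D.U₀ z.1) = Sec.resLin inf_le_right (secMul t D.U₁ z.2)
    rw [restrict_secMul, restrict_secMul]
    exact congrArg _ hz

lemma injective_h0Mul {t : M.Sect ⊤} (ht : t.IsRegularSect) :
    Function.Injective (h0Mul D (L := L) t) := fun z z' h => by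
  have h' := congrArg Subtype.val h
  exact Subtype.ext (Prod.ext (injective_secMul ht _ (congrArg Prod.fst h'))
    (injective_secMul ht _ (congrArg Prod.snd h')))

/-- A global section as an element of `H⁰`. -/
def toH0 (w : L.Sect ⊤) : (D.cech L).H0 :=
  ⟨((show Sec c L D.U₀ from w.restrict le_top), (show Sec c L D.U₁ from w.restrict le_top)), by
    rw [LinearMap.mem_ker, PatchedModule.d_apply, sub_eq_zero]
    exact (LineCocycle.Sect.restrict_restrict le_top inf_le_left w).trans
      (LineCocycle.Sect.restrict_restrict le_top inf_le_right w).symm⟩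

/-- An element of `H⁰` comes from a global section. -/
lemma exists_toH0_eq (z : (D.cech L).H0) : ∃ w : L.Sect ⊤, toH0 D w = z := by
  obtain ⟨w, h0, h1⟩ := D.exists_glue_of_d_eq_zero L z.1 z.2
  exact ⟨w, Subtype.ext (Prod.ext h0 h1)⟩

/-- If a section of `L ⊗ M` does not vanish at a zero of a regular section of `M`, then `L` has
fewer global sections than `L ⊗ M`. -/
theorem finrank_H0_lt {t : M.Sect ⊤} (ht : t.IsRegularSect) {w : (L.mul M).Sect ⊤} {z : C}
    (hw : w.NonvanishingAt z) (htz : ¬ t.NonvanishingAt z) :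
    Module.finrank k (D.cech L).H0 < Module.finrank k (D.cech (L.mul M)).H0 := by
  have := (D.cech L).finiteDimensional_H0
  have := (D.cech (L.mul M)).finiteDimensional_H0
  refine lt_of_le_of_ne (LinearMap.finrank_le_finrank_of_injective (injective_h0Mul D ht))
    fun heq => ?_
  obtain ⟨y, hy⟩ :=
    ((LinearMap.injective_iff_surjective_of_finrank_eq_finrank heq).mp (injective_h0Mul D ht))
      (toH0 D w)
  have hsurj : ∀ (i : C.Opens), (∃ s : Sec c L i, secMul t i s = w.restrict le_top) → z ∈ i →
      False := by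
    rintro i ⟨s, hs⟩ hzi
    have hzV : z ∈ i ⊓ (L.mul M).U z := ⟨hzi, (L.mul M).mem z⟩
    have hu := hw.isUnit_germ z (V := i ⊓ (L.mul M).U z) le_top inf_le_right hzV
    rw [← LineCocycle.Sect.at_restrict (le_top : i ≤ ⊤) w z inf_le_left inf_le_right, ← hs,
      at_secMul, map_mul] at hu
    exact htz ⟨z, _, le_top, inf_le_right.trans inf_le_right, hzV, isUnit_of_mul_isUnit_right hu⟩
  have h0 := congrArg (fun r => (Subtype.val r).1) hy
  have h1 := congrArg (fun r => (Subtype.val r).2) hy
  rcases (D.cover.ge (Set.mem_univ z) : z ∈ D.U₀ ⊔ D.U₁) with hz | hz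
  · exact hsurj D.U₀ ⟨y.1.1, h0⟩ hz
  · exact hsurj D.U₁ ⟨y.1.2, h1⟩ hz

end mulLeft

section CR

variable {k : Type u} [Field k] {C : Scheme.{u}} (c : C ⟶ Spec (CommRingCat.of k))
  (K : Type u) [Field K] [Algebra k K]

instance universallyOpen_prC : UniversallyOpen (prC c K) := by
  have : UniversallyOpen (specAlg (k := k) K) := by
    have : IsIntegral (Spec (CommRingCat.of k)) := inferInstance
    have : Subsingleton (Spec (CommRingCat.of k)) :=
      inferInstanceAs (Subsingleton (PrimeSpectrum k))
    infer_instance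
  infer_instance

variable {c}

/-- The pullback to `C_K` of the canonical section of a divisor on `C`. -/
def canonOn (E : EffDiv C) : (E.cocycle.comap (prC c K)).Sect ⊤ :=
  (E.canon ⊤).comap (prC c K) le_top

lemma at_canonOn (E : EffDiv C) (x : CR c K) {V : (CR c K).Opens}
    (hx : V ≤ (E.cocycle.comap (prC c K)).U x) :
    (canonOn K E).at x le_top hx =
      pb (prC c K) (U := ⊤ ⊓ E.V (prC c K x)) (le_inf le_top hx)
        (E.eqn (prC c K x) inf_le_right) := by
  refine (LineCocycle.Sect.at_comap (prC c K) _ (E.canon ⊤) x le_top hx).trans ?_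
  rfl

/-- On an integral base change the pullback of an equation is regular. -/
theorem isRegularSect_canonOn [IsIntegral C] [IsIntegral (CR c K)] (E : EffDiv C) :
    (canonOn (c := c) K E).IsRegularSect := by
  intro x V hW hx
  rcases Set.eq_empty_or_nonempty (V : Set (CR c K)) with hV | hV
  · have : Subsingleton Γ(CR c K, V) := by
      obtain rfl : V = ⊥ := TopologicalSpace.Opens.ext (by simpa using hV)
      infer_instance
    exact ⟨fun b _ => Subsingleton.elim _ _, fun b _ => Subsingleton.elim _ _⟩
  obtain ⟨z, hz, hzη⟩ : ∃ z ∈ V, prC c K z = genericPoint C := by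
    have : genericPoint C ∈ prC c K '' (V : Set (CR c K)) :=
      ((genericPoint_spec C).mem_open_set_iff ((prC c K).isOpenMap _ V.isOpen)).mpr
        (by simpa using hV)
    obtain ⟨z, hz, h⟩ := this
    exact ⟨z, hz, h⟩
  have : Nonempty V := ⟨⟨z, hz⟩⟩
  rw [at_canonOn]
  refine mem_nonZeroDivisors_of_ne_zero fun h0 => ?_
  have hzE : prC c K z ∈ (⊤ : C.Opens) ⊓ E.V (prC c K x) := ⟨trivial, hx hz⟩
  have : Nonempty ((⊤ : C.Opens) ⊓ E.V (prC c K x) : C.Opens) := ⟨⟨_, hzE⟩⟩
  have hne : E.eqn (prC c K x) (inf_le_right : (⊤ : C.Opens) ⊓ E.V (prC c K x) ≤ _) ≠ 0 :=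
    nonZeroDivisors.ne_zero (E.eqn_mem_nonZeroDivisors _ _)
  have hu : IsUnit (C.presheaf.germ ((⊤ : C.Opens) ⊓ E.V (prC c K x)) (prC c K z) hzE
      (E.eqn (prC c K x) inf_le_right)) := by
    rw [← Scheme.mem_basicOpen]
    rw [hzη]
    exact ((genericPoint_spec C).mem_open_set_iff (C.basicOpen _).isOpen).mpr (by
      simpa [Set.nonempty_iff_ne_empty, ← TopologicalSpace.Opens.coe_bot] using hne)
  have := (CR c K).presheaf.germ V z hz |>.hom.map_zero
  rw [← h0, pb, Scheme.Hom.appLE, CommRingCat.hom_comp, RingHom.comp_apply] at this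
  rw [TopCat.Presheaf.germ_res_apply] at this
  rw [← Scheme.Hom.germ_stalkMap_apply (prC c K) _ z hzE] at this
  exact (hu.map ((prC c K).stalkMap z).hom).ne_zero this

/-- The pullback of the canonical section vanishes over the support of the divisor. -/
theorem not_nonvanishingAt_canonOn (E : EffDiv C) (z : CR c K)
    (hE : ¬ IsUnit (C.presheaf.germ (E.V (prC c K z)) (prC c K z) (E.mem _) (E.f _))) :
    ¬ (canonOn (c := c) K E).NonvanishingAt z := by
  intro h
  have hz : z ∈ prC c K ⁻¹ᵁ E.V (prC c K z) := E.mem _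
  have hu := h.isUnit_germ z (V := prC c K ⁻¹ᵁ E.V (prC c K z)) le_top le_rfl hz
  rw [at_canonOn, EffDiv.eqn, pb_res, pb, ← Scheme.Hom.app_eq_appLE,
    ← Scheme.Hom.germ_stalkMap_apply (prC c K) (E.V (prC c K z)) z (E.mem _)] at hu
  exact hE ((isUnit_map_iff ((prC c K).stalkMap z).hom _).mp hu)

/-- A nonzero section on `C_K` does not vanish at some point over a closed point of `C`. -/
theorem exists_nonvanishing_over_closed [LocallyOfFiniteType c] [IsReduced (CR c K)]
    {L : LineCocycle (CR c K)} {s : L.Sect ⊤} (hs : s ≠ 0) :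
    ∃ z : CR c K, IsClosed ({prC c K z} : Set C) ∧ s.NonvanishingAt z := by
  obtain ⟨N, hN, hNs⟩ := exists_open_nonvanishing hs
  have : JacobsonSpace C := LocallyOfFiniteType.jacobsonSpace c
  obtain ⟨p, ⟨z, hz, rfl⟩, hp⟩ := nonempty_inter_closedPoints (hN.image (prC c K))
    ((prC c K).isOpenMap _ N.isOpen).isLocallyClosed
  exact ⟨z, hp, hNs z hz⟩

end CR

end Fermat.Agent.Jacobian

namespace Fermat.Agent.Jacobian

/-- Nonvanishing is preserved by isomorphisms of line bundles. -/
theorem LineCocycle.Sect.NonvanishingAt.sectMap {X : Scheme.{u}} {L M : LineCocycle X}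
    {W : X.Opens} {s : L.Sect W} {z : X} (h : s.NonvanishingAt z) (hz : z ∈ W)
    (e : LineCocycle.Rel L M) : (e.sectMap s).NonvanishingAt z := by
  refine ⟨z, W ⊓ e.V z, inf_le_left, inf_le_right.trans (e.leM z), ⟨hz, e.mem z⟩, ?_⟩
  rw [e.at_sectMap s z inf_le_left inf_le_right, map_mul]
  exact ((e.isUnit_unitAt z inf_le_right).map _).mul
    (h.isUnit_germ z inf_le_left (inf_le_right.trans (e.leL z)) ⟨hz, e.mem z⟩)

section translate

variable {k : Type u} [Field k] {C : Scheme.{u}} {c : C ⟶ Spec (CommRingCat.of k)}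
  (D : CurveChart c) (K : Type u) [Field K] [Algebra k K]

/-- A class on `C_K` without `H¹` becomes acyclic after twisting by a class on `C`, as soon as
twisting by the divisors through closed points of `C` raises the Euler characteristic by one. -/
theorem exists_translate_of_surjective [IsIntegral C] [LocallyOfFiniteType c]
    [IsIntegral (CR c K)]
    (hpt : ∀ P : C, IsClosed ({P} : Set C) → ∃ E : EffDiv C,
      ¬ IsUnit (C.presheaf.germ (E.V P) P (E.mem P) (E.f P)) ∧
        ∀ L' : LineCocycle (CR c K),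
          ((D.baseChange K).cech (L'.mul (E.cocycle.comap (prC c K)))).chi =
            ((D.baseChange K).cech L').chi + 1)
    (L : LineCocycle (CR c K)) (hs : Function.Surjective ((D.baseChange K).cech L).d) :
    ∃ M : Pic C, (D.baseChange K).AcyclicClass (Pic.mk L * Pic.comap (prC c K) M) := by
  generalize hn : Module.finrank K ((D.baseChange K).cech L).H0 = n
  induction n generalizing L with
  | zero =>
    refine ⟨1, ?_⟩
    rw [map_one, mul_one, CurveChart.acyclicClass_mk_iff]
    refine PatchedModule.bijective_of_chi_eq_zero _ ?_ hs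
    rw [PatchedModule.chi, LinearMap.index_of_surjective hs]
    exact congrArg Nat.cast hn
  | succ n ih =>
    set P₀ := (D.baseChange K).cech L with hP₀
    have := P₀.finiteDimensional_H0
    obtain ⟨y, hy⟩ : ∃ y : P₀.H0, y ≠ 0 :=
      have : Nontrivial P₀.H0 := Module.nontrivial_of_finrank_pos (R := K) (by omega)
      exists_ne 0
    obtain ⟨w, hw⟩ := exists_toH0_eq (D.baseChange K) y
    have hw0 : w ≠ 0 := fun h => hy (by
      subst h
      rw [← hw]
      exact Subtype.ext (Prod.ext
        (LineCocycle.Sect.ext' (L := L) fun x =>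
          (LineCocycle.Sect.at_restrict (L := L) le_top 0 x _ _).trans
            ((LineCocycle.Sect.at_zero (L := L) x _ _).trans
              (LineCocycle.Sect.at_zero (L := L) x _ _).symm))
        (LineCocycle.Sect.ext' (L := L) fun x =>
          (LineCocycle.Sect.at_restrict (L := L) le_top 0 x _ _).trans
            ((LineCocycle.Sect.at_zero (L := L) x _ _).trans
              (LineCocycle.Sect.at_zero (L := L) x _ _).symm))))
    obtain ⟨z, hP, hwz⟩ := exists_nonvanishing_over_closed (c := c) K hw0
    obtain ⟨E, hE, hchi⟩ := hpt _ hP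
    let E' := E.cocycle.comap (prC c K)
    let L' := L.mul E'.inv
    obtain ⟨e⟩ : Nonempty (LineCocycle.Rel L (L'.mul E')) := Pic.mk_eq_mk.mp (by
      rw [← Pic.mk_mul, ← Pic.mk_mul, ← Pic.mk_inv, inv_mul_cancel_right])
    let F := (D.baseChange K).cechIso e
    have hlt := finrank_H0_lt (D.baseChange K) (isRegularSect_canonOn (c := c) K E)
      (hwz.sectMap trivial e) (not_nonvanishingAt_canonOn K E z hE)
    rw [← F.H0Equiv.finrank_eq, hn] at hlt
    have h1 := hchi L'
    have h2 : ((D.baseChange K).cech (L'.mul E')).chi = P₀.chi := F.index_eq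
    rw [h2, P₀.chi_eq, PatchedModule.chi_eq] at h1
    have h3 : Module.finrank K P₀.H1 = 0 := by
      have : Subsingleton P₀.H1 := Submodule.Quotient.subsingleton_iff.mpr
        (LinearMap.range_eq_top.mpr hs)
      exact Module.finrank_zero_of_subsingleton
    have h0' : Module.finrank K ((D.baseChange K).cech L').H0 = n ∧
        Module.finrank K ((D.baseChange K).cech L').H1 = 0 := by omega
    have hs' : Function.Surjective ((D.baseChange K).cech L').d := by
      have := ((D.baseChange K).cech L').finiteDimensional_H1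
      rw [← LinearMap.range_eq_top, ← Submodule.Quotient.subsingleton_iff]
      exact Module.finrank_zero_iff.mp h0'.2
    obtain ⟨M, hM⟩ := ih L' hs' h0'.1
    refine ⟨(Pic.mk E.cocycle)⁻¹ * M, ?_⟩
    rwa [map_mul, map_inv, Pic.comap_mk, Pic.mk_inv, ← mul_assoc, Pic.mk_mul]

/-- The Euler characteristic of a class pulled back from `C`. -/
theorem chi_comap_prC (M : LineCocycle C) :
    ((D.baseChange K).cech (M.comap (prC c K))).chi = (D.cech M).chi :=
  (((D.chartBaseChange K).iso M).index_eq).trans ((D.cech M).chi_baseChange K)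

end translate

end Fermat.Agent.Jacobian
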