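import Fermat.Agent.Jacobian.RiemannRoch.Degree
import Fermat.Agent.Jacobian.RiemannRoch.Compare
import Fermat.Agent.Jacobian.RiemannRoch.Infinity
import Fermat.Agent.Jacobian.RiemannRoch.TranslateCore
import Fermat.Agent.Jacobian.Curve.ChartBaseChange

/-!
# Translates of classes on `C_K` without cohomology

Over algebraically closed `k ⊆ K`, every class on `C_K` becomes acyclic after twisting by a class
pulled back from `C`.
-/

set_option autoImplicit false

noncomputable section

universe u

open CategoryTheory AlgebraicGeometry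

namespace Fermat.Agent.Jacobian

namespace CurveChart

variable {k : Type u} [Field k] {C : Scheme.{u}} {c : C ⟶ Spec (CommRingCat.of k)}
  (D : CurveChart c) (K : Type u) [Field K] [Algebra k K]

/-- The divisor at infinity commutes with base change. -/
theorem comap_infCls (m : ℕ) :
    Pic.comap (prC c K) (D.infCls m) = (D.baseChange K).infCls m := by
  refine (EffDiv.IsPullback.cls_eq (h := prC c K) fun y W hE hD => ?_).symm
  by_cases hy : y ∈ (D.baseChange K).U₀
  · have hy' : prC c K y ∈ D.U₀ := hy
    rw [(D.baseChange K).eqn_infDiv_of_mem m hy hE]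
    simp only [infDiv, dif_pos hy']
    exact Associated.of_eq (RingHom.map_one _)
  · have hy' : prC c K y ∉ D.U₀ := hy
    simp only [EffDiv.eqn, infDiv, dif_neg hy', dif_neg hy]
    refine Associated.of_eq ((pb_res (prC c K) _ _ _).trans ?_)
    refine (map_pow _ _ _).trans (Eq.trans ?_ (res_res _ _ _).symm)
    refine Eq.trans ?_ (map_pow _ _ _).symm
    exact congrArg (· ^ m)
      (res_pb (prC c K) (U := D.U₁) (V := overU c K D.U₁) le_rfl _ D.y).symm

/-- The Euler characteristic of a class pulled back from `C`. -/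
theorem chi_comap (ξ : Pic C) :
    (D.baseChange K).chi (Pic.comap (prC c K) ξ) = D.chi ξ := by
  obtain ⟨L, rfl⟩ := Pic.mk_surjective ξ
  exact chi_comap_prC D K L

/-- The degree of a class pulled back from `C`. -/
theorem deg_comap (ξ : Pic C) :
    (D.baseChange K).deg (Pic.comap (prC c K) ξ) = D.deg ξ := by
  rw [deg, deg, chi_comap, ← D.chi_comap K 1, map_one]

lemma chi_eq_zero_of_acyclicClass {ξ : Pic C} (h : D.AcyclicClass ξ) : D.chi ξ = 0 := by
  rw [chi_eq_sub, ((D.acyclicClass_iff_h0_h1 ξ).mp h).1, ((D.acyclicClass_iff_h0_h1 ξ).mp h).2]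
  simp

variable [IsAlgClosed k] [IsIntegral C] [SmoothOfRelativeDimension 1 c] [LocallyOfFiniteType c]
  [IsAlgClosed K]

omit [IsAlgClosed k] [IsIntegral C] [LocallyOfFiniteType c] [IsAlgClosed K] in
/-- Smoothness passes to the base change. -/
theorem smoothOfRelativeDimension_prR : SmoothOfRelativeDimension 1 (prR c K) :=
  haveI := smoothOfRelativeDimension_isStableUnderBaseChange 1
  MorphismProperty.pullback_snd (P := @SmoothOfRelativeDimension.{u} 1) _ _ ‹_›

/-- Every class on `C_K` becomes acyclic after twisting by a class from `C`. -/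
theorem exists_translate_acyclic (ξ : Pic (CR c K)) :
    ∃ M : Pic C, (D.baseChange K).AcyclicClass (ξ * Pic.comap (prC c K) M) := by
  have : IsIntegral (CR c K) := isIntegral_CR c K
  have : SmoothOfRelativeDimension 1 (prR c K) := smoothOfRelativeDimension_prR K
  obtain ⟨N, hN⟩ := (D.baseChange K).exists_surjective_d_of_mul_infCls ξ
  obtain ⟨L, hL⟩ := Pic.mk_surjective (ξ * (D.baseChange K).infCls N)
  obtain ⟨M, hM⟩ := exists_translate_of_surjective D K (fun P hP => by
    obtain ⟨E, hE⟩ := exists_isPointDiv c hP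
    refine ⟨E, ?_, fun L' => ?_⟩
    · rw [← Scheme.mem_basicOpen]
      have := hE.notMem_basicOpen_eqn (le_refl (E.V P)) (E.mem P)
      rwa [EffDiv.eqn, res_refl] at this
    · rw [← chi_mk, ← chi_mk, ← Pic.mk_mul, ← Pic.comap_mk, chi_eq_deg, deg_mul, deg_comap,
        chi_eq_deg (D.baseChange K) (Pic.mk L'), show Pic.mk E.cocycle = E.cls from rfl,
        hE.cls_eq_ptCls, D.deg_ptCls hP]
      ring) L (hN N le_rfl L hL)
  refine ⟨D.infCls N * M, ?_⟩
  rwa [map_mul, comap_infCls, ← mul_assoc, ← hL]

/-- The degree of the twist. -/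
theorem deg_of_acyclicClass_translate {ξ : Pic (CR c K)} {M : Pic C}
    (h : (D.baseChange K).AcyclicClass (ξ * Pic.comap (prC c K) M)) :
    (D.baseChange K).deg ξ + D.deg M = (D.genus : ℤ) - 1 := by
  have : IsIntegral (CR c K) := isIntegral_CR c K
  have : SmoothOfRelativeDimension 1 (prR c K) := smoothOfRelativeDimension_prR K
  have h0 := (D.baseChange K).chi_eq_zero_of_acyclicClass h
  rw [chi_eq_deg, deg_mul, deg_comap, ← map_one (Pic.comap (prC c K)), chi_comap, chi_one] at h0
  omega

/-- A class of degree zero on `C_K` lies in the translate of the acyclic locus by a class of degree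
`genus - 1` from `C`. -/
theorem exists_translate (ξ : Pic (CR c K)) (hξ : (D.baseChange K).deg ξ = 0) :
    ∃ M : Pic C, D.deg M = (D.genus : ℤ) - 1 ∧
      (D.baseChange K).AcyclicClass (ξ * Pic.comap (prC c K) M) := by
  obtain ⟨M, hM⟩ := D.exists_translate_acyclic K ξ
  refine ⟨M, ?_, hM⟩
  have := D.deg_of_acyclicClass_translate K hM
  omega

/-- The same, phrased with the Euler characteristic of the structure sheaf. -/
theorem exists_translate_chiDeg (ξ : Pic (CR c K)) (hξ : (D.baseChange K).chiDeg ξ = 0) :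
    ∃ M : Pic C, D.chiDeg M = -(D.cech .one).chi ∧
      (D.baseChange K).AcyclicClass (ξ * Pic.comap (prC c K) M) := by
  rw [chiDeg_eq_deg] at hξ
  obtain ⟨M, hM, h⟩ := D.exists_translate K ξ hξ
  refine ⟨M, ?_, h⟩
  rw [chiDeg_eq_deg, hM, ← chi_mk, ← Pic.one_def, chi_one]
  ring

end CurveChart

end Fermat.Agent.Jacobian
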