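import Fermat.Agent.Jacobian.RiemannRoch.Compare
import Fermat.Agent.Jacobian.RiemannRoch.TranslateCore
import Fermat.Agent.Jacobian.Properties.DiagonalFibre
import Fermat.Agent.Jacobian.Curve.ChartBaseChange
import Fermat.Agent.Jacobian.Curve.ChartExists
import Mathlib.AlgebraicGeometry.AlgClosed.Basic

/-!
# Degree zero classes are sums of Abel–Jacobi classes

The divisor of a section through a closed point is the divisor of that point, so over an
algebraically closed field a class of degree zero is a product of `genus` Abel–Jacobi classes.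
-/

set_option autoImplicit false

noncomputable section

universe u

open CategoryTheory CategoryTheory.Limits TopologicalSpace AlgebraicGeometry
  AlgebraicGeometry.RelPicard NeronModelInfra

namespace Fermat.Agent.Jacobian

/-- A section of a field has as its divisor the divisor of its point. -/
theorem IsSectDiv.isPointDiv_closedPoint {K : Type u} [Field K] {X : Scheme.{u}}
    {σ : Spec (CommRingCat.of K) ⟶ X} {E : EffDiv X} (hE : IsSectDiv σ E) :
    IsPointDiv E (σ (IsLocalRing.closedPoint K)) := by
  intro x V h a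
  set z := σ (IsLocalRing.closedPoint K)
  have hpre : z ∈ V → (⊤ : (Spec (CommRingCat.of K)).Opens) ≤ σ ⁻¹ᵁ V := fun hz w _ => by
    show σ w ∈ V
    rw [Subsingleton.elim (α := PrimeSpectrum K) w (IsLocalRing.closedPoint K)]
    exact hz
  constructor
  · rintro ⟨b, rfl⟩ hz hb
    have h2 : z ∈ X.basicOpen (E.eqn x h) := (mem_basicOpen_mul.1 hb).1
    obtain ⟨hz', hu⟩ := (Scheme.mem_basicOpen'' _ _ _).1 h2
    refine (pb_point_eq_zero_iff σ (hpre hz) (E.eqn x h)).1 ?_ hu
    rw [← res_pb σ (le_refl (σ ⁻¹ᵁ V)) (hpre hz)]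
    rw [show pb σ (le_refl (σ ⁻¹ᵁ V)) (E.eqn x h) = 0 from (hE x).pb_res_eq_zero h, map_zero]
  · intro ha
    refine (hE x).gen V h a ?_
    by_cases hz : z ∈ V
    · have h0 : pb σ (hpre hz) a = 0 := (pb_point_eq_zero_iff σ (hpre hz) a).2 fun hu =>
        ha hz ((Scheme.mem_basicOpen'' _ _ _).2 ⟨hz, hu⟩)
      have h1 := congrArg (res (le_top : σ ⁻¹ᵁ V ≤ ⊤)) h0
      rw [map_zero, res_pb] at h1
      exact h1
    · have hbot : σ ⁻¹ᵁ V = ⊥ := eq_bot_iff.2 fun w hw => hz (by
        have hw' : σ w ∈ V := hw
        rwa [Subsingleton.elim (α := PrimeSpectrum K) w (IsLocalRing.closedPoint K)] at hw')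
      have : Subsingleton Γ(Spec (CommRingCat.of K), σ ⁻¹ᵁ V) := by
        rw [hbot]; infer_instance
      exact Subsingleton.elim _ _

variable {k : Type u} [Field k] {C : Scheme.{u}} {c : C ⟶ Spec (CommRingCat.of k)}
  {K : Type u} [Field K] [Algebra k K]

/-- A closed point of `C_K` is the point of a `K`-point of `C`. -/
theorem exists_ptSec_closedPoint_eq [IsAlgClosed K] [LocallyOfFiniteType c] {z : CR c K}
    (hz : IsClosed ({z} : Set (CR c K))) :
    ∃ y : SchemeHomOver (specAlg (k := k) K) c, ptSec y (IsLocalRing.closedPoint K) = z := by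
  set σ := pointOfClosedPoint (prR c K) z hz
  have hσ : σ ≫ prR c K = 𝟙 _ := pointOfClosedPoint_comp _ _ _
  refine ⟨⟨σ ≫ prC c K, ?_⟩, ?_⟩
  · rw [Category.assoc, show prC c K ≫ c = prR c K ≫ specAlg (k := k) K from pullback.condition,
      ← Category.assoc, hσ, Category.id_comp]
  · have e : ptSec (⟨σ ≫ prC c K, by
        rw [Category.assoc, show prC c K ≫ c = prR c K ≫ specAlg (k := k) K from pullback.condition,
          ← Category.assoc, hσ, Category.id_comp]⟩ : SchemeHomOver (specAlg (k := k) K) c) = σ :=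
      pullback.hom_ext (ptSec_prC _) ((ptSec_prR _).trans hσ.symm)
    rw [e]
    exact pointOfClosedPoint_apply _ _ _ _

variable [SmoothOfRelativeDimension 1 c]

/-- The class of the point of a `K`-point is the fibre of `O(Δ)`. -/
theorem CurveChart.ptCls_ptSec (ch : CurveChart c) (y : SchemeHomOver (specAlg (k := k) K) c) :
    ptCls (ptSec y (IsLocalRing.closedPoint K)) = Pic.comap (baseChangeSnd c y) ch.diagCls := by
  have h : ∀ (ch' : CurveChart c), y.1 ⁻¹ᵁ ch'.U₀ = ⊤ →
      ptCls (ptSec y (IsLocalRing.closedPoint K)) =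
        Pic.comap (baseChangeSnd c y) ch'.diagCls := fun ch' hy => by
    rw [ch'.comap_diagCls y hy (fibresLocallyPrincipal_fun c ch'.affine₀)]
    exact ((ch'.isSectDiv_pointDivisor y hy _).isPointDiv_closedPoint.cls_eq_ptCls).symm
  rcases ch.point_mem_or y with hy | hy
  · exact h ch hy
  · rw [← ch.diagCls_eq ch.symm]
    exact h ch.symm hy

/-- The base point as a `K`-point. -/
def epsPt (ε : SchemeHomOver (𝟙 (Spec (CommRingCat.of k))) c) (K : Type u) [Field K]
    [Algebra k K] : SchemeHomOver (specAlg (k := k) K) c :=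
  ⟨specAlg (k := k) K ≫ ε.1, by rw [Category.assoc, ε.2, Category.comp_id]⟩

/-- The class of the base point of `C_K`. -/
theorem EpsChart.ptCls_epsPt {ε : SchemeHomOver (𝟙 (Spec (CommRingCat.of k))) c}
    (E : EpsChart c ε) :
    ptCls (ptSec (epsPt ε K) (IsLocalRing.closedPoint K)) = Pic.comap (prC c K) E.Oeps := by
  have he : baseChangeSnd c (epsPt ε K) = prC c K ≫ fibreIncl c ε := by
    apply pullback.hom_ext
    · rw [Category.assoc, baseChangeSnd_fst]
      exact ((congrArg (prC c K ≫ ·) (pullback.lift_fst _ _ _)).trans (Category.comp_id _)).symm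
    · rw [Category.assoc, baseChangeSnd_snd]
      refine Eq.trans ?_ (congrArg (prC c K ≫ ·) (pullback.lift_snd _ _ _)).symm
      show pullback.snd c _ ≫ specAlg (k := k) K ≫ ε.1 = prC c K ≫ c ≫ ε.1
      rw [← Category.assoc, ← Category.assoc]
      exact congrArg (· ≫ ε.1) pullback.condition.symm
  rw [E.toCurveChart.ptCls_ptSec, he, Pic.comap_comp,
    E.toCurveChart.comap_fibreIncl_diagCls ε E.isSectDiv_epsDiv]
  rfl

/-- The curve stays smooth after extending scalars. -/
theorem smoothOfRelativeDimension_prR_field : SmoothOfRelativeDimension 1 (prR c K) :=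
  (smoothOfRelativeDimension_isStableUnderBaseChange 1).of_isPullback
    (IsPullback.of_hasPullback c (specAlg (k := k) K)) ‹_›

section

variable [IsAlgClosed k] [IsIntegral C] [LocallyOfFiniteType c] [IsAlgClosed K]

/-- The genus does not change with the base field. -/
theorem CurveChart.genus_baseChange (D : CurveChart c) :
    (D.baseChange K).genus = D.genus := by
  have := isIntegral_CR (c := c) K
  have := smoothOfRelativeDimension_prR_field (c := c) (K := K)
  obtain ⟨L, hL⟩ := Pic.mk_surjective (1 : Pic C)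
  have h1 : (D.baseChange K).chi 1 = D.chi 1 := by
    rw [← map_one (Pic.comap (prC c K)), ← hL, Pic.comap_mk, CurveChart.chi_mk, CurveChart.chi_mk]
    exact chi_comap_prC (K := K) D L
  have h2 := (D.baseChange K).chi_one
  have h3 := D.chi_one
  omega

/-- A class of degree zero is a product of Abel–Jacobi classes of `genus` points. -/
theorem EpsChart.exists_eq_prod_ajClass {ε : SchemeHomOver (𝟙 (Spec (CommRingCat.of k))) c}
    (E : EpsChart c ε) (ξ : Pic (CR c K))
    (hξ : (E.toCurveChart.baseChange K).deg ξ = 0) :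
    ∃ y : Fin E.toCurveChart.genus → SchemeHomOver (specAlg (k := k) K) c,
      ξ = ∏ i, Pic.comap (baseChangeSnd c (y i)) E.ajClass.1 := by
  have := isIntegral_CR (c := c) K
  have := smoothOfRelativeDimension_prR_field (c := c) (K := K)
  set z₀ := ptSec (epsPt ε K) (IsLocalRing.closedPoint K)
  have hz₀ : IsClosed ({z₀} : Set (CR c K)) :=
    ((pointEquivClosedPoint (prR c K)) ⟨ptSec (epsPt ε K), ptSec_prR _⟩).2
  obtain ⟨S, hS, hcard, hprod⟩ := (E.toCurveChart.baseChange K).exists_eq_prod_div hξ hz₀
  rw [E.toCurveChart.genus_baseChange] at hcard hprod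
  have hlen : S.toList.length = E.toCurveChart.genus := by rw [Multiset.length_toList, hcard]
  have hpt : ∀ i : Fin E.toCurveChart.genus, ∃ y : SchemeHomOver (specAlg (k := k) K) c,
      ptSec y (IsLocalRing.closedPoint K) = S.toList.get (i.cast hlen.symm) := fun i =>
    exists_ptSec_closedPoint_eq (hS _ (Multiset.mem_toList.1 (List.get_mem _ _)))
  choose y hy using hpt
  refine ⟨y, ?_⟩
  have hmap : (S.map ptCls).prod =
      ∏ i : Fin E.toCurveChart.genus, ptCls (S.toList.get (i.cast hlen.symm)) := by
    rw [← Multiset.prod_map_toList]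
    rw [← Fin.prod_ofFn]
    congr 1
    apply List.ext_getElem (by simp [hlen])
    intro n h1 h2
    simp
  rw [hprod, hmap, E.ptCls_epsPt]
  simp only [E.comap_ajClass, ← E.toCurveChart.ptCls_ptSec, hy, Finset.prod_mul_distrib,
    Finset.prod_inv_distrib, Finset.prod_const, Finset.card_univ, Fintype.card_fin]

end

end Fermat.Agent.Jacobian
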