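import Fermat.Agent.Jacobian.Curve.Points
import Fermat.Agent.Jacobian.Divisor.EffDiv

/-!
# Points of a smooth curve as effective divisors

`IsPointDiv E z`: the equations of `E` cut out exactly the point `z`, with multiplicity one.
`ptCls z` is the class of such a divisor.
-/

set_option autoImplicit false

noncomputable section

universe u

open CategoryTheory TopologicalSpace AlgebraicGeometry nonZeroDivisors

namespace Fermat.Agent.Jacobian

variable {C : Scheme.{u}}

lemma basicOpen_res_le {U V : C.Opens} (h : V ≤ U) (a : Γ(C, U)) :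
    C.basicOpen (res h a) = V ⊓ C.basicOpen a :=
  C.basicOpen_res a _

lemma mem_basicOpen_res {U V : C.Opens} (h : V ≤ U) {a : Γ(C, U)} {z : C} (hz : z ∈ V) :
    z ∈ C.basicOpen (res h a) ↔ z ∈ C.basicOpen a := by
  rw [basicOpen_res_le]
  exact ⟨fun h' => h'.2, fun h' => ⟨hz, h'⟩⟩

lemma isUnit_iff_forall_mem_basicOpen {U : C.Opens} {a : Γ(C, U)} :
    IsUnit a ↔ ∀ z ∈ U, z ∈ C.basicOpen a :=
  ⟨fun h _ hz => (C.basicOpen_of_isUnit h).ge hz, fun h =>
    RingedSpace.isUnit_of_isUnit_germ _ U a fun z hz => (C.mem_basicOpen a z hz).1 (h z hz)⟩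

lemma notMem_basicOpen_add {U : C.Opens} {a b : Γ(C, U)} {z : C} (ha : z ∉ C.basicOpen a)
    (hb : z ∉ C.basicOpen b) : z ∉ C.basicOpen (a + b) := fun h =>
  (C.basicOpen_add_le a b h).elim ha hb

lemma notMem_basicOpen_mul {U : C.Opens} (a : Γ(C, U)) {b : Γ(C, U)} {z : C}
    (hb : z ∉ C.basicOpen b) : z ∉ C.basicOpen (a * b) := fun h => hb (by
  rw [C.basicOpen_mul] at h
  exact h.2)

lemma mem_basicOpen_mul {U : C.Opens} {a b : Γ(C, U)} {z : C} :
    z ∈ C.basicOpen (a * b) ↔ z ∈ C.basicOpen a ∧ z ∈ C.basicOpen b := by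
  rw [C.basicOpen_mul]
  exact Iff.rfl

lemma mem_basicOpen_of_dvd {U : C.Opens} {a b : Γ(C, U)} (h : a ∣ b) {z : C}
    (hz : z ∈ C.basicOpen b) : z ∈ C.basicOpen a := by
  obtain ⟨c, rfl⟩ := h
  exact (mem_basicOpen_mul.1 hz).1

lemma subsingleton_of_forall_notMem {V : C.Opens} (h : ∀ z, z ∉ V) : Subsingleton Γ(C, V) :=
  ⟨fun _ _ => eq_of_cover (fun e : Empty => e.elim) (fun e => e.elim)
    (fun z hz => absurd hz (h z)) fun e => e.elim⟩

section integral

variable [IsIntegral C]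

lemma res_ne_zero {U V : C.Opens} (h : V ≤ U) {a : Γ(C, U)} (ha : a ≠ 0) {z : C} (hz : z ∈ V) :
    res h a ≠ 0 := fun h0 => ha (germ_injective_of_isIntegral C z (h hz) (by
  rw [map_zero, ← C.presheaf.germ_res_apply (homOfLE h) z hz a]
  exact (congrArg _ h0).trans (map_zero _)))

lemma res_mem_nonZeroDivisors {U V : C.Opens} (h : V ≤ U) {a : Γ(C, U)} (ha : a ≠ 0) :
    res h a ∈ Γ(C, V)⁰ := by
  by_cases hne : ∃ z, z ∈ V
  · obtain ⟨z, hz⟩ := hne
    have : Nonempty V := ⟨⟨z, hz⟩⟩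
    exact mem_nonZeroDivisors_of_ne_zero (res_ne_zero h ha hz)
  · have := subsingleton_of_forall_notMem (fun z hz => hne ⟨z, hz⟩ : ∀ z, z ∉ V)
    exact mem_nonZeroDivisors_iff_right.2 fun b _ => Subsingleton.elim _ _

end integral

namespace EffDiv

/-- Divisors with equations dividing each other have the same class. -/
theorem cls_eq_of_dvd_dvd {D E : EffDiv C}
    (h₁ : ∀ x, D.eqn x (W := D.V x ⊓ E.V x) inf_le_left ∣ E.eqn x inf_le_right)
    (h₂ : ∀ x, E.eqn x (W := D.V x ⊓ E.V x) inf_le_right ∣ D.eqn x inf_le_left) :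
    D.cls = E.cls := by
  have key : ∀ x, ∃ e : Γ(C, D.V x ⊓ E.V x)ˣ,
      (e : Γ(C, D.V x ⊓ E.V x)) * D.eqn x inf_le_left = E.eqn x inf_le_right := fun x => by
    obtain ⟨a, ha⟩ := h₁ x
    obtain ⟨b, hb⟩ := h₂ x
    have hab : a * b = 1 := by
      refine (mul_cancel_left_mem_nonZeroDivisors
        (D.eqn_mem_nonZeroDivisors x (W := D.V x ⊓ E.V x) inf_le_left)).1 ?_
      rw [← mul_assoc, ← ha, ← hb, mul_one]
    exact ⟨⟨a, b, hab, by rw [mul_comm, hab]⟩, by rw [ha, mul_comm]⟩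
  choose e he using key
  refine Pic.mk_eq_mk.2 ⟨⟨fun x => D.V x ⊓ E.V x, fun x => ⟨D.mem x, E.mem x⟩,
    fun _ => inf_le_left, fun _ => inf_le_right, e, fun x y W hx hy => ?_⟩⟩
  refine (mul_cancel_right_mem_nonZeroDivisors
    (D.eqn_mem_nonZeroDivisors y (hy.trans inf_le_left))).1 ?_
  have hx' := congrArg (res hx) (he x)
  have hy' := congrArg (res hy) (he y)
  simp only [map_mul, res_eqn] at hx' hy'
  rw [mul_assoc, mul_assoc, hy', E.tr_mul_eqn, D.tr_mul_eqn, hx']

end EffDiv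

/-- The equations of `E` cut out exactly `z`, simply. -/
def IsPointDiv (E : EffDiv C) (z : C) : Prop :=
  ∀ (x : C) (V : C.Opens) (h : V ≤ E.V x) (a : Γ(C, V)),
    E.eqn x h ∣ a ↔ (z ∈ V → z ∉ C.basicOpen a)

namespace IsPointDiv

variable {E F : EffDiv C} {z : C}

lemma notMem_basicOpen_eqn (hE : IsPointDiv E z) {x : C} {V : C.Opens} (h : V ≤ E.V x)
    (hz : z ∈ V) : z ∉ C.basicOpen (E.eqn x h) :=
  (hE x V h _).1 dvd_rfl hz

lemma isUnit_eqn (hE : IsPointDiv E z) {x : C} {V : C.Opens} (h : V ≤ E.V x) (hz : z ∉ V) :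
    IsUnit (E.eqn x h) :=
  isUnit_of_dvd_one ((hE x V h 1).2 fun h' => absurd h' hz)

lemma mem_basicOpen_eqn (hE : IsPointDiv E z) (hc : IsClosed ({z} : Set C)) {x : C} {V : C.Opens}
    (h : V ≤ E.V x) {w : C} (hw : w ∈ V) (hne : w ≠ z) : w ∈ C.basicOpen (E.eqn x h) := by
  let V' : C.Opens := V ⊓ ⟨{z}ᶜ, hc.isOpen_compl⟩
  have hu : IsUnit (res (inf_le_left : V' ≤ V) (E.eqn x h)) := by
    rw [EffDiv.res_eqn]
    exact hE.isUnit_eqn _ fun hz => hz.2 rfl
  have hw' : w ∈ V' := ⟨hw, hne⟩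
  have := (isUnit_iff_forall_mem_basicOpen.1 hu) w hw'
  exact (mem_basicOpen_res _ hw').1 this

theorem cls_eq (hE : IsPointDiv E z) (hF : IsPointDiv F z) : E.cls = F.cls :=
  EffDiv.cls_eq_of_dvd_dvd
    (fun x => (hE x _ _ _).2 fun hz => hF.notMem_basicOpen_eqn _ hz)
    (fun x => (hF x _ _ _).2 fun hz => hE.notMem_basicOpen_eqn _ hz)

end IsPointDiv

open scoped Classical in
/-- The class `O(z)` of a closed point. -/
def ptCls (z : C) : Pic C :=
  if h : ∃ E, IsPointDiv E z then h.choose.cls else 1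

lemma IsPointDiv.cls_eq_ptCls {E : EffDiv C} {z : C} (hE : IsPointDiv E z) : E.cls = ptCls z := by
  have h : ∃ E, IsPointDiv E z := ⟨E, hE⟩
  rw [ptCls, dif_pos h]
  exact hE.cls_eq h.choose_spec

section curve

variable {K : Type u} [Field K] [IsAlgClosed K] (c : C ⟶ Spec (CommRingCat.of K))
  [IsIntegral C] [SmoothOfRelativeDimension 1 c] [LocallyOfFiniteType c]

omit [IsIntegral C] in
lemma mem_basicOpen_iff_notMem {V : C.Opens} (hV : IsAffineOpen V) {z : C} (hz : z ∈ V)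
    (a : Γ(C, V)) : z ∈ C.basicOpen a ↔ a ∉ (hV.primeIdealOf ⟨z, hz⟩).asIdeal := by
  let _ : Algebra Γ(C, V) (C.presheaf.stalk z) :=
    TopCat.Presheaf.algebra_section_stalk C.presheaf ⟨z, hz⟩
  have := hV.isLocalization_stalk ⟨z, hz⟩
  rw [C.mem_basicOpen a z hz]
  exact IsLocalization.AtPrime.isUnit_to_map_iff (C.presheaf.stalk z)
    (hV.primeIdealOf ⟨z, hz⟩).asIdeal a

/-- Near a closed point, the data of an affine piece. -/
theorem exists_affine_data {z : C} (hc : IsClosed ({z} : Set C)) :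
    ∃ (V : C.Opens) (hV : IsAffineOpen V) (hz : z ∈ V),
      (∀ a : Γ(C, V), ∃ r : K, a - baseHom c V r ∈ (hV.primeIdealOf ⟨z, hz⟩).asIdeal) ∧
      ∃ s ∉ (hV.primeIdealOf ⟨z, hz⟩).asIdeal, ∃ f ∈ (hV.primeIdealOf ⟨z, hz⟩).asIdeal,
        ∀ a ∈ (hV.primeIdealOf ⟨z, hz⟩).asIdeal, f ∣ s * a := by
  obtain ⟨V, hV, hz, hft, ω, hω, -⟩ := exists_standard_nhd c z
  let _ : Algebra K Γ(C, V) := sectionAlgebra c V
  have := isMaximal_of_isClosed hV hz hc
  obtain ⟨ρ, hρ⟩ := exists_residueHom K (hV.primeIdealOf ⟨z, hz⟩).asIdeal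
  have hΩ : OmegaLocallyCyclic K Γ(C, V) := fun p hp =>
    ⟨1, fun h => hp.ne_top ((Ideal.eq_top_iff_one p).2 h), ω, fun η => (hω η).imp fun a ha => by
      rw [one_smul, ha]⟩
  exact ⟨V, hV, hz, fun a => ⟨ρ a, hρ a⟩,
    idealsLocallyPrincipal_of_isAlgClosed K hΩ _ _ inferInstance⟩

/-- A function takes a value in the ground field at a closed point. -/
theorem exists_value {z : C} (hc : IsClosed ({z} : Set C)) {V : C.Opens} (hz : z ∈ V)
    (a : Γ(C, V)) : ∃ r : K, z ∉ C.basicOpen (a - baseHom c V r) := by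
  obtain ⟨U, hU, hzU, hval, -⟩ := exists_affine_data c hc
  set m := (hU.primeIdealOf ⟨z, hzU⟩).asIdeal
  let _ : Algebra Γ(C, U) (C.presheaf.stalk z) :=
    TopCat.Presheaf.algebra_section_stalk C.presheaf ⟨z, hzU⟩
  have := hU.isLocalization_stalk ⟨z, hzU⟩
  obtain ⟨⟨b, t⟩, hbt⟩ := IsLocalization.surj m.primeCompl (C.presheaf.germ V z hz a)
  obtain ⟨rb, hrb⟩ := hval b
  obtain ⟨rt, hrt⟩ := hval (t : Γ(C, U))
  have hzm : ∀ e : Γ(C, U), e ∈ m → z ∉ C.basicOpen e := fun e he h =>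
    (mem_basicOpen_iff_notMem hU hzU e).1 h he
  have hrt0 : rt ≠ 0 := fun h0 => t.2 (by
    rw [h0, map_zero, sub_zero] at hrt
    exact hrt)
  refine ⟨rb / rt, fun hmem => ?_⟩
  let V' : C.Opens := V ⊓ U
  have hz' : z ∈ V' := ⟨hz, hzU⟩
  have heq : res (inf_le_left : V' ≤ V) a * res (inf_le_right : V' ≤ U) (t : Γ(C, U)) =
      res (inf_le_right : V' ≤ U) b := by
    apply germ_injective_of_isIntegral C z hz'
    rw [map_mul]
    simp only [res, C.presheaf.germ_res_apply]
    exact hbt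
  have hmem' : z ∈ C.basicOpen (res (inf_le_left : V' ≤ V) (a - baseHom c V (rb / rt)) *
      res (inf_le_right : V' ≤ U) (t : Γ(C, U))) :=
    mem_basicOpen_mul.2 ⟨(mem_basicOpen_res _ hz').2 hmem,
      (mem_basicOpen_res _ hz').2 ((mem_basicOpen_iff_notMem hU hzU _).2 t.2)⟩
  have hcalc : res (inf_le_left : V' ≤ V) (a - baseHom c V (rb / rt)) *
      res (inf_le_right : V' ≤ U) (t : Γ(C, U)) =
      res (inf_le_right : V' ≤ U) ((b - baseHom c U rb) -
        baseHom c U (rb / rt) * ((t : Γ(C, U)) - baseHom c U rt)) := by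
    have hrb' : baseHom c V' rb = baseHom c V' (rb / rt) * baseHom c V' rt := by
      rw [← map_mul, div_mul_cancel₀ _ hrt0]
    simp only [map_sub, map_mul, res_baseHom, ← heq]
    linear_combination hrb'
  rw [hcalc, mem_basicOpen_res _ hz'] at hmem'
  exact hzm _ (sub_mem hrb (Ideal.mul_mem_left m _ hrt)) hmem'

include c in
/-- A local equation of a closed point. -/
theorem exists_point_equation {z : C} (hc : IsClosed ({z} : Set C)) :
    ∃ (W : C.Opens) (t : Γ(C, W)), z ∈ W ∧ t ≠ 0 ∧ ∀ (V : C.Opens) (h : V ≤ W) (a : Γ(C, V)),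
      res h t ∣ a ↔ (z ∈ V → z ∉ C.basicOpen a) := by
  obtain ⟨U, hU, hzU, -, s, hs, f, hf, hdvd⟩ := exists_affine_data c hc
  set m := (hU.primeIdealOf ⟨z, hzU⟩).asIdeal with hm
  have hzW : z ∈ C.basicOpen s := (mem_basicOpen_iff_notMem hU hzU s).2 hs
  have hle : C.basicOpen s ≤ U := C.basicOpen_le s
  have hfz : z ∉ C.basicOpen f := fun h => (mem_basicOpen_iff_notMem hU hzU f).1 h hf
  have hf0 : f ≠ 0 := by
    intro h0
    refine (isPrincipalIdealRing_stalk c hc).2 (IsLocalRing.isField_iff_maximalIdeal_eq.2 ?_)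
    let _ : Algebra Γ(C, U) (C.presheaf.stalk z) :=
      TopCat.Presheaf.algebra_section_stalk C.presheaf ⟨z, hzU⟩
    have := hU.isLocalization_stalk ⟨z, hzU⟩
    have : Nonempty U := ⟨⟨z, hzU⟩⟩
    rw [← IsLocalization.AtPrime.map_eq_maximalIdeal m (C.presheaf.stalk z), eq_bot_iff,
      Ideal.map_le_iff_le_comap]
    intro a ha
    obtain ⟨d, hd⟩ := hdvd a ha
    rw [h0, zero_mul, mul_eq_zero] at hd
    rcases hd with hd | hd
    · exact absurd (hd ▸ m.zero_mem) hs
    · rw [Ideal.mem_comap, hd, map_zero]; exact zero_mem _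
  refine ⟨C.basicOpen s, res hle f, hzW, res_ne_zero hle hf0 hzW, fun V h a => ?_⟩
  rw [res_res]
  constructor
  · intro hd hz hza
    exact hfz ((mem_basicOpen_res _ hz).1 (mem_basicOpen_of_dvd hd hza))
  · intro hna
    have key : ∀ w : V, ∃ (O : C.Opens) (hO : O ≤ V), w.1 ∈ O ∧
        res (hO.trans (h.trans hle)) f ∣ res hO a := by
      intro w
      have hwU : w.1 ∈ U := hle (h w.2)
      by_cases hw : w.1 = z
      · have hzV : z ∈ V := hw ▸ w.2
        let _ : Algebra Γ(C, U) (C.presheaf.stalk z) :=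
          TopCat.Presheaf.algebra_section_stalk C.presheaf ⟨z, hzU⟩
        have := hU.isLocalization_stalk ⟨z, hzU⟩
        obtain ⟨⟨b, t⟩, hbt⟩ := IsLocalization.surj m.primeCompl (C.presheaf.germ V z hzV a)
        have heq : a * res (h.trans hle) (t : Γ(C, U)) = res (h.trans hle) b := by
          apply germ_injective_of_isIntegral C z hzV
          rw [map_mul]
          simp only [res, C.presheaf.germ_res_apply]
          exact hbt
        have hb : b ∈ m := by
          by_contra hb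
          have := (mem_basicOpen_iff_notMem hU hzU b).2 hb
          rw [← mem_basicOpen_res (h.trans hle) hzV, ← heq] at this
          exact hna hzV (mem_basicOpen_mul.1 this).1
        obtain ⟨d, hd⟩ := hdvd b hb
        have hu : z ∈ C.basicOpen (s * (t : Γ(C, U))) :=
          mem_basicOpen_mul.2 ⟨hzW, (mem_basicOpen_iff_notMem hU hzU _).2 t.2⟩
        refine ⟨V ⊓ C.basicOpen (s * (t : Γ(C, U))), inf_le_left, (hw.symm ▸ (show z ∈ V ⊓ C.basicOpen (s * (t : Γ(C, U))) from ⟨hzV, hu⟩)), ?_⟩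
        have hU' : IsUnit (res (inf_le_left.trans (h.trans hle) :
            V ⊓ C.basicOpen (s * (t : Γ(C, U))) ≤ U) (s * (t : Γ(C, U)))) :=
          isUnit_iff_forall_mem_basicOpen.2 fun v hv => (mem_basicOpen_res _ hv).2 hv.2
        refine (hU'.dvd_mul_left).1 ⟨res (inf_le_left.trans (h.trans hle)) d, ?_⟩
        rw [← map_mul, ← hd, map_mul, map_mul]
        have h1 := congrArg (res (inf_le_left : V ⊓ C.basicOpen (s * (t : Γ(C, U))) ≤ V)) heq
        simp only [map_mul, res_res] at h1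
        rw [← h1]
        ring
      · refine ⟨V ⊓ C.basicOpen f, inf_le_left, ⟨w.2, ?_⟩, IsUnit.dvd ?_⟩
        · obtain ⟨e, he, hwe⟩ : ∃ e ∈ m, w.1 ∈ C.basicOpen e := by
            by_contra hcon
            push Not at hcon
            have hmax := isMaximal_of_isClosed hU hzU hc
            have hle' : m ≤ (hU.primeIdealOf ⟨w.1, hwU⟩).asIdeal := fun e he => by
              by_contra h'
              exact hcon e he ((mem_basicOpen_iff_notMem hU hwU e).2 h')
            have heq' := hmax.eq_of_le (hU.primeIdealOf ⟨w.1, hwU⟩).isPrime.ne_top hle'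
            have h2 := congrArg hU.fromSpec (PrimeSpectrum.ext heq' :
              hU.primeIdealOf ⟨z, hzU⟩ = hU.primeIdealOf ⟨w.1, hwU⟩)
            rw [hU.fromSpec_primeIdealOf, hU.fromSpec_primeIdealOf] at h2
            exact hw h2.symm
          exact mem_basicOpen_of_dvd (hdvd e he) (mem_basicOpen_mul.2 ⟨h w.2, hwe⟩)
        · exact isUnit_iff_forall_mem_basicOpen.2 fun v hv => (mem_basicOpen_res _ hv).2 hv.2
    choose O hO hwO hd using key
    refine dvd_of_cover O hO (fun w hw => ⟨⟨w, hw⟩, hwO ⟨w, hw⟩⟩)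
      (fun W' hW' => by rw [res_res]; exact res_mem_nonZeroDivisors _ hf0) fun i => ?_
    rw [res_res]
    exact hd i

include c in
/-- Closed points carry point divisors. -/
theorem exists_isPointDiv {z : C} (hc : IsClosed ({z} : Set C)) :
    ∃ E : EffDiv C, IsPointDiv E z := by
  classical
  obtain ⟨W, t, hzW, ht0, hiff⟩ := exists_point_equation c hc
  let Z : C.Opens := ⟨{z}ᶜ, hc.isOpen_compl⟩
  let V : C → C.Opens := fun x => if x = z then W else Z
  let f : ∀ x, Γ(C, V x) := fun x =>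
    if h : x = z then res (le_of_eq (if_pos h)) t else 1
  have key : ∀ (x : C) (V' : C.Opens) (h : V' ≤ V x) (a : Γ(C, V')),
      res h (f x) ∣ a ↔ (z ∈ V' → z ∉ C.basicOpen a) := by
    intro x V' h a
    by_cases hx : x = z
    · rw [show f x = res (le_of_eq (if_pos hx)) t from dif_pos hx, res_res]
      exact hiff V' _ a
    · rw [show f x = 1 from dif_neg hx, map_one]
      exact iff_of_true (one_dvd _) fun hz => absurd rfl
        ((h.trans (le_of_eq (if_neg hx))) hz : z ∈ ({z}ᶜ : Set C))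
  refine ⟨⟨V, fun x => ?_, f, fun x y V' hx hy => ?_, fun x V' h => ?_⟩, key⟩
  · show x ∈ if x = z then W else Z
    split_ifs with h
    · exact h ▸ hzW
    · exact h
  · exact (key y V' hy _).2 ((key x V' hx _).1 dvd_rfl)
  · by_cases hx : x = z
    · rw [show f x = res (le_of_eq (if_pos hx)) t from dif_pos hx, res_res]
      exact res_mem_nonZeroDivisors _ ht0
    · rw [show f x = 1 from dif_neg hx, map_one]
      exact one_mem _

end curve

end Fermat.Agent.Jacobian
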