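import Fermat.Agent.Jacobian.RiemannRoch.Point
import Fermat.Agent.Jacobian.Transfer
import Fermat.Agent.Jacobian.Relative
import Fermat.Agent.Jacobian.Cech.Complex
import Mathlib.RingTheory.Ideal.GoingUp
import Mathlib.Algebra.Polynomial.Div
import Mathlib.RingTheory.Polynomial.Basic
import Mathlib.LinearAlgebra.FiniteDimensional.Lemmas

/-!
# Divisors of sections on a curve

A nonzero section is an effective divisor, an effective divisor is a finite product of points, and
multiplication by the canonical section of a point has a cokernel of dimension one on every affine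
open containing it.
-/

set_option autoImplicit false

noncomputable section

universe u

open CategoryTheory TopologicalSpace AlgebraicGeometry nonZeroDivisors Polynomial

namespace Fermat.Agent.Jacobian

variable {C : Scheme.{u}}

namespace LineCocycle.Sect

variable {L M : LineCocycle C} {W : C.Opens}

lemma add_mul' (s s' : L.Sect W) (t : M.Sect W) : (s + s').mul t = s.mul t + s'.mul t :=
  ext' fun x => by simp [add_mul]

lemma smul_mul' (r : Γ(C, W)) (s : L.Sect W) (t : M.Sect W) :
    (r • s).mul t = r • s.mul t :=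
  ext' fun x => by simp [mul_assoc]

variable [IsIntegral C]

lemma at_ne_zero {s : M.Sect ⊤} (hs : s ≠ 0) (x : C) :
    s.at x (V := M.U x) le_top le_rfl ≠ 0 := fun h => hs <| ext' fun y => by
  rw [at_zero]
  by_contra hy
  have hgx : genericPoint C ∈ M.U x :=
    ((genericPoint_spec C).mem_open_set_iff (M.U x).isOpen).2 ⟨x, trivial, M.mem x⟩
  have hgy : genericPoint C ∈ M.U y :=
    ((genericPoint_spec C).mem_open_set_iff (M.U y).isOpen).2 ⟨y, trivial, M.mem y⟩
  let V : C.Opens := ⊤ ⊓ (M.U x ⊓ M.U y)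
  refine res_ne_zero (le_inf inf_le_left (inf_le_right.trans inf_le_right) : V ≤ ⊤ ⊓ M.U y) hy
    (⟨trivial, hgx, hgy⟩ : genericPoint C ∈ V) ?_
  rw [res_at, at_eq s y x _ _ (inf_le_right.trans inf_le_left),
    ← res_at s x (V := M.U x) le_top le_rfl (inf_le_right.trans inf_le_left : V ≤ M.U x), h,
    map_zero, mul_zero]

/-- A nonzero section as an effective divisor. -/
def effDiv (s : M.Sect ⊤) (hs : s ≠ 0) : EffDiv C where
  V := M.U
  mem := M.mem
  f x := s.at x (V := M.U x) le_top le_rfl
  dvd x y V hx hy := by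
    rw [res_at, res_at, at_eq s x y _ hx hy]
    exact dvd_mul_left _ _
  regular x V h := res_mem_nonZeroDivisors h (at_ne_zero hs x)

@[simp] lemma eqn_effDiv (s : M.Sect ⊤) (hs : s ≠ 0) (x : C) {V : C.Opens} (h : V ≤ M.U x) :
    (effDiv s hs).eqn x h = s.at x le_top h := res_at s x (V := M.U x) le_top le_rfl h

theorem cls_effDiv (s : M.Sect ⊤) (hs : s ≠ 0) : (effDiv s hs).cls = Pic.mk M :=
  Pic.mk_eq_mk.2 ⟨Rel.ofEq M.U M.mem (fun _ => le_rfl) (fun _ => le_rfl) fun x y V hx hy => by
    refine (mul_cancel_right_mem_nonZeroDivisors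
      ((effDiv s hs).eqn_mem_nonZeroDivisors y hy)).1 ?_
    rw [(effDiv s hs).tr_mul_eqn x y hx hy, eqn_effDiv, eqn_effDiv]
    exact (at_eq s x y le_top hx hy).symm⟩

end LineCocycle.Sect

namespace EffDiv

open LineCocycle

variable (E : EffDiv C)

/-- Multiplication by the canonical section. -/
def mulCanon (L : LineCocycle C) (W : C.Opens) :
    L.Sect W →ₗ[Γ(C, W)] (L.mul E.cocycle).Sect W where
  toFun t := t.mul (E.canon W)
  map_add' s t := Sect.add_mul' s t _
  map_smul' r t := Sect.smul_mul' r t _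

lemma mulCanon_injective (L : LineCocycle C) (W : C.Opens) :
    Function.Injective (E.mulCanon L W) := fun s t h => by
  refine Sect.ext_of_cover (fun x => W ⊓ (L.mul E.cocycle).U x) (fun _ => inf_le_left)
    (fun z hz => ⟨z, hz, (L.mul E.cocycle).mem z⟩) (fun x => x)
    (fun _ => inf_le_right.trans inf_le_left) fun x => ?_
  have h1 := congrArg (fun e => Sect.at e x (V := W ⊓ (L.mul E.cocycle).U x) inf_le_left
    inf_le_right) h
  simp only [mulCanon, LinearMap.coe_mk, AddHom.coe_mk, Sect.at_mul', at_canon] at h1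
  exact (mul_cancel_right_mem_nonZeroDivisors (E.eqn_mem_nonZeroDivisors x _)).1 h1

theorem mem_range_mulCanon {L : LineCocycle C} {W : C.Opens} {u : (L.mul E.cocycle).Sect W} :
    u ∈ LinearMap.range (E.mulCanon L W) ↔
      ∀ x, E.eqn x (W := W ⊓ (L.mul E.cocycle).U x) (inf_le_right.trans inf_le_right) ∣
        u.at x inf_le_left inf_le_right := by
  constructor
  · rintro ⟨t, rfl⟩ x
    show _ ∣ (t.mul (E.canon W)).at x _ _
    rw [Sect.at_mul', at_canon]
    exact dvd_mul_left _ _
  · intro h
    choose d hd using h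
    let O : C → C.Opens := fun y => W ⊓ (L.mul E.cocycle).U y
    have hO : ∀ y, O y ≤ L.U y := fun y => inf_le_right.trans inf_le_left
    obtain ⟨t, ht⟩ := Sect.exists_glue (L := L) O (fun _ => inf_le_left)
      (fun z hz => ⟨z, hz, (L.mul E.cocycle).mem z⟩) (fun y => Sect.single (hO y) (d y))
      fun i j x V hi hj hx => by
        rw [Sect.at_single, Sect.at_single, ← L.tr_mul_tr x i j hx (hi.trans (hO i))
          (hj.trans (hO j)), mul_assoc]
        congr 1
        refine (mul_cancel_left_mem_nonZeroDivisors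
          (E.eqn_mem_nonZeroDivisors i (hi.trans (inf_le_right.trans inf_le_right)))).1 ?_
        have h1 := congrArg (res hi) (hd i)
        have h2 := congrArg (res hj) (hd j)
        simp only [map_mul, Sect.res_at, res_eqn] at h1 h2
        rw [← h1, Sect.at_eq u i j _ _ (hj.trans inf_le_right), h2, LineCocycle.tr_mul,
          ← E.tr_mul_eqn i j (hi.trans (inf_le_right.trans inf_le_right))
            (hj.trans (inf_le_right.trans inf_le_right))]
        ring
    refine ⟨t, Sect.ext' fun y => ?_⟩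
    show (t.mul (E.canon W)).at y _ _ = _
    have h1 := congrArg (fun r : L.Sect (O y) => r.at y (V := O y) le_rfl (hO y)) (ht y)
    simp only [Sect.at_restrict, Sect.at_single, LineCocycle.tr_self, one_mul, res_refl] at h1
    rw [Sect.at_mul', at_canon, h1, hd y, mul_comm]

/-- Functions vanishing on `E`. -/
def vanishing {K : Type u} [CommRing K] (c : C ⟶ Spec (CommRingCat.of K)) (W : C.Opens) :
    Submodule K (Fun c W) where
  carrier := {a | ∀ x, E.eqn x (W := W ⊓ E.V x) inf_le_right ∣
    res inf_le_left (show Γ(C, W) from a)}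
  add_mem' {a b} ha hb x := (map_add (res (inf_le_left : W ⊓ E.V x ≤ W))
    (show Γ(C, W) from a) b).symm ▸ dvd_add (ha x) (hb x)
  zero_mem' x := (map_zero (res (inf_le_left : W ⊓ E.V x ≤ W))).symm ▸ dvd_zero _
  smul_mem' r a ha x := by
    show _ ∣ res inf_le_left (baseHom c W r * (show Γ(C, W) from a))
    rw [map_mul]
    exact dvd_mul_of_dvd_right (ha x) _

end EffDiv

section curve

open LineCocycle

variable {K : Type u} [Field K] (c : C ⟶ Spec (CommRingCat.of K))

/-- Multiplication by the canonical section, linear over the ground field. -/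
def EffDiv.mulCanonLin (E : EffDiv C) (L : LineCocycle C) (W : C.Opens) :
    Sec c L W →ₗ[K] Sec c (L.mul E.cocycle) W where
  toFun t := E.mulCanon L W t
  map_add' s t := map_add (E.mulCanon L W) s t
  map_smul' r t := map_smul (E.mulCanon L W) (baseHom c W r) t

lemma EffDiv.mulCanonLin_apply (E : EffDiv C) (L : LineCocycle C) (W : C.Opens) (t : Sec c L W) :
    E.mulCanonLin c L W t = E.mulCanon L W t := rfl

/-- Over a finite cover of the line, a nonzero function cuts out a finite scheme. -/
theorem finiteDimensional_quotient_of_mem [IsIntegral C] {U : C.Opens} [Nonempty U] (f : Γ(C, U))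
    (hfin : (lineHom c f).Finite) (S : Submodule K (Fun c U)) {g : Γ(C, U)} (hg : g ≠ 0)
    (hS : ∀ a : Γ(C, U), (show Fun c U from a * g) ∈ S) : FiniteDimensional K (Fun c U ⧸ S) := by
  let _a : Algebra K[X] Γ(C, U) := (lineHom c f).toAlgebra
  have : Module.Finite K[X] Γ(C, U) := hfin
  obtain ⟨p, hp, hp0⟩ : ∃ p ∈ (Ideal.span {g}).comap (algebraMap K[X] Γ(C, U)), p ≠ 0 :=
    Submodule.exists_mem_ne_zero_of_ne_bot (Ideal.comap_ne_bot_of_integral_mem hg
      (Ideal.mem_span_singleton_self g) (Algebra.IsIntegral.isIntegral g))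
  let q : K[X] := p * Polynomial.C p.leadingCoeff⁻¹
  have hq : q.Monic := monic_mul_leadingCoeff_inv hp0
  have hqg : g ∣ lineHom c f q := by
    rw [map_mul]
    exact dvd_mul_of_dvd_left (Ideal.mem_span_singleton.1 hp) _
  obtain ⟨n, s, hs⟩ := Module.Finite.exists_fin (R := K[X]) (M := Γ(C, U))
  let Ψ : (Fin n → Polynomial.degreeLT K q.natDegree) →ₗ[K] (Fun c U ⧸ S) :=
    { toFun := fun e => S.mkQ (show Fun c U from ∑ i, lineHom c f (e i) * s i)
      map_add' := fun e e' => by
        rw [← map_add]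
        congr 1
        simp only [Pi.add_apply, Submodule.coe_add, map_add, add_mul]
        exact Finset.sum_add_distrib
      map_smul' := fun r e => by
        rw [RingHom.id_apply, ← map_smul]
        congr 1
        show (∑ i, lineHom c f ((r • e) i : K[X]) * s i : Γ(C, U)) =
          baseHom c U r * ∑ i, lineHom c f (e i) * s i
        rw [Finset.mul_sum]
        refine Finset.sum_congr rfl fun i _ => ?_
        rw [Pi.smul_apply, Submodule.coe_smul_of_tower, Polynomial.smul_eq_C_mul, map_mul,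
          mul_assoc, lineHom, coe_eval₂RingHom, eval₂_C] }
  have : Module.Finite K (Polynomial.degreeLT K q.natDegree) :=
    Module.Finite.equiv (Polynomial.degreeLTEquiv K q.natDegree).symm
  refine Module.Finite.of_surjective Ψ fun z => ?_
  obtain ⟨a, rfl⟩ := Submodule.mkQ_surjective _ z
  obtain ⟨e, he⟩ := (Submodule.mem_span_range_iff_exists_fun K[X]).1
    (hs.ge (Submodule.mem_top : (show Γ(C, U) from a) ∈ ⊤))
  refine ⟨fun i => ⟨e i %ₘ q, Polynomial.mem_degreeLT.2
    ((degree_modByMonic_lt _ hq).trans_le (degree_le_natDegree))⟩, ?_⟩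
  refine (Submodule.Quotient.eq S).2 ?_
  obtain ⟨d, hd⟩ := hqg
  have key : (∑ i, lineHom c f (e i %ₘ q) * s i : Γ(C, U)) - (show Γ(C, U) from a) =
      (-∑ i, d * lineHom c f (e i /ₘ q) * s i) * g := by
    rw [← he, ← Finset.sum_sub_distrib, neg_mul, Finset.sum_mul, ← Finset.sum_neg_distrib]
    refine Finset.sum_congr rfl fun i _ => ?_
    show lineHom c f (e i %ₘ q) * s i - lineHom c f (e i) * s i = _
    conv_lhs => arg 2; arg 1; rw [← modByMonic_add_div (e i) q]
    rw [map_add, map_mul, hd]
    ring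
  exact key.symm ▸ hS _

variable [IsAlgClosed K] [IsIntegral C] [SmoothOfRelativeDimension 1 c] [LocallyOfFiniteType c]

omit [IsAlgClosed K] [IsIntegral C] [SmoothOfRelativeDimension 1 c] [LocallyOfFiniteType c] in
/-- Some section of a partition does not vanish at a given point. -/
theorem exists_sect_mem_basicOpen (M : LineCocycle C) {W : C.Opens} (hW : IsAffineOpen W) {z : C}
    (hz : z ∈ W) : ∃ s : M.Sect W,
      z ∈ C.basicOpen (s.at z (V := W ⊓ M.U z) inf_le_left inf_le_right) := by
  obtain ⟨n, s, t, hst⟩ := Sect.exists_partition M hW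
  by_contra hcon
  push Not at hcon
  have hz' : z ∈ W ⊓ M.U z := ⟨hz, M.mem z⟩
  have hsum : z ∉ C.basicOpen (res (inf_le_left : W ⊓ M.U z ≤ W) (∑ j, (s j).pair (t j))) := by
    rw [map_sum]
    refine Finset.sum_induction _ (fun a => z ∉ C.basicOpen a)
      (fun a b => notMem_basicOpen_add) (by rw [C.basicOpen_zero]; exact fun h => h) fun j _ => ?_
    rw [Sect.res_pair (hx := (inf_le_right : W ⊓ M.U z ≤ M.U z)), mul_comm]
    exact notMem_basicOpen_mul _ (hcon (s j))
  rw [hst, map_one, C.basicOpen_one] at hsum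
  exact hsum hz'

/-- The cokernel of the canonical section of a point is one-dimensional around the point. -/
theorem finrank_coker_point {E : EffDiv C} {z : C} (hE : IsPointDiv E z)
    (hc : IsClosed ({z} : Set C)) (L : LineCocycle C) {W : C.Opens} (hW : IsAffineOpen W)
    [Decidable (z ∈ W)] :
    FiniteDimensional K (Sec c (L.mul E.cocycle) W ⧸ LinearMap.range (E.mulCanonLin c L W)) ∧
      Module.finrank K (Sec c (L.mul E.cocycle) W ⧸ LinearMap.range (E.mulCanonLin c L W)) =
        if z ∈ W then 1 else 0 := by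
  let N := L.mul E.cocycle
  have hmem : ∀ u : N.Sect W, (show Sec c N W from u) ∈ LinearMap.range (E.mulCanonLin c L W) ↔
      (z ∈ W → z ∉ C.basicOpen (u.at z (V := W ⊓ N.U z) inf_le_left inf_le_right)) := by
    intro u
    refine Iff.trans (?_ : _ ↔ u ∈ LinearMap.range (E.mulCanon L W)) ?_
    · exact Iff.rfl
    rw [E.mem_range_mulCanon]
    refine ⟨fun h hz => (hE z _ _ _).1 (h z) ⟨hz, N.mem z⟩, fun h x => (hE x _ _ _).2 fun hzV => ?_⟩
    let V : C.Opens := (W ⊓ N.U x) ⊓ (W ⊓ N.U z)
    have hzV' : z ∈ V := ⟨hzV, hzV.1, N.mem z⟩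
    rw [← mem_basicOpen_res (inf_le_left : V ≤ W ⊓ N.U x) hzV', Sect.res_at,
      Sect.at_eq u x z _ _ (inf_le_right.trans inf_le_right)]
    refine notMem_basicOpen_mul _ ?_
    rw [← Sect.res_at u z inf_le_left inf_le_right (inf_le_right : V ≤ W ⊓ N.U z),
      mem_basicOpen_res _ hzV']
    exact h hzV.1
  by_cases hz : z ∈ W
  · rw [if_pos hz]
    obtain ⟨u₁, hu₁⟩ := exists_sect_mem_basicOpen N hW hz
    obtain ⟨r₁, hr₁⟩ := exists_value c hc (show z ∈ W ⊓ N.U z from ⟨hz, N.mem z⟩)
      (u₁.at z inf_le_left inf_le_right)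
    have hr₁0 : r₁ ≠ 0 := fun h0 => by
      rw [h0, map_zero, sub_zero] at hr₁
      exact hr₁ hu₁
    have h1 : Module.finrank K (Sec c N W ⧸ LinearMap.range (E.mulCanonLin c L W)) = 1 := by
      refine finrank_eq_one ((LinearMap.range (E.mulCanonLin c L W)).mkQ (show Sec c N W from u₁))
        (fun h0 => (hmem u₁).1 ((Submodule.Quotient.mk_eq_zero _).1 h0) hz hu₁) fun w => ?_
      obtain ⟨w, rfl⟩ := Submodule.mkQ_surjective _ w
      obtain ⟨r, hr⟩ := exists_value c hc (show z ∈ W ⊓ N.U z from ⟨hz, N.mem z⟩)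
        (Sect.at (L := N) w z inf_le_left inf_le_right)
      refine ⟨r / r₁, ?_⟩
      rw [← map_smul]
      refine ((Submodule.Quotient.eq _).2 ((hmem ((show N.Sect W from w) -
        baseHom c W (r / r₁) • u₁)).2 fun _ => ?_)).symm
      rw [Sect.at_sub, Sect.at_smul, res_baseHom]
      have hid : Sect.at (L := N) w z (V := W ⊓ N.U z) inf_le_left inf_le_right -
          baseHom c _ (r / r₁) * u₁.at z inf_le_left inf_le_right =
          (Sect.at (L := N) w z (V := W ⊓ N.U z) inf_le_left inf_le_right - baseHom c _ r) +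
            (-baseHom c _ (r / r₁)) * (u₁.at z inf_le_left inf_le_right - baseHom c _ r₁) := by
        have : baseHom c (W ⊓ N.U z) r = baseHom c _ (r / r₁) * baseHom c _ r₁ := by
          rw [← map_mul, div_mul_cancel₀ _ hr₁0]
        linear_combination this
      rw [hid]
      exact notMem_basicOpen_add hr (notMem_basicOpen_mul _ hr₁)
    exact ⟨Module.finite_of_finrank_eq_succ h1, h1⟩
  · rw [if_neg hz]
    have hsub : Subsingleton (Sec c N W ⧸ LinearMap.range (E.mulCanonLin c L W)) := by
      rw [Submodule.Quotient.subsingleton_iff, eq_top_iff]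
      exact fun u _ => (hmem u).2 fun h => absurd h hz
    exact ⟨inferInstance, Module.finrank_zero_of_subsingleton⟩

namespace EffDiv

variable (E : EffDiv C)

omit [IsAlgClosed K] [SmoothOfRelativeDimension 1 c] [LocallyOfFiniteType c] in
theorem finiteDimensional_vanishing {U : C.Opens} (hU : IsAffineOpen U) (f : Γ(C, U))
    (hfin : (lineHom c f).Finite) : FiniteDimensional K (Fun c U ⧸ E.vanishing c U) := by
  by_cases hne : ∃ z, z ∈ U
  · obtain ⟨z, hz⟩ := hne
    have : Nonempty U := ⟨⟨z, hz⟩⟩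
    obtain ⟨t, ht⟩ := exists_sect_mem_basicOpen E.cocycle.inv hU hz
    have hg : E.invToFun U t ≠ 0 := fun h0 => by
      rw [E.invToFun_injective U (h0.trans (map_zero _).symm), Sect.at_zero, C.basicOpen_zero] at ht
      exact ht
    refine finiteDimensional_quotient_of_mem c f hfin _ hg fun a => ?_
    intro x
    exact (mem_range_invToFun E).1 ⟨a • t, (map_smul _ a t).trans (smul_eq_mul ..)⟩ x
  · have := subsingleton_of_forall_notMem (fun z hz => hne ⟨z, hz⟩ : ∀ z, z ∉ U)
    have : Subsingleton (Fun c U) := this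
    have : Subsingleton (Fun c U ⧸ E.vanishing c U) :=
      (Submodule.Quotient.mk_surjective _).subsingleton
    infer_instance

include c in
/-- A zero of an effective divisor is a closed point. -/
theorem isClosed_of_notMem {x w : C} {V : C.Opens} (h : V ≤ E.V x) (hw : w ∈ V)
    (hz : w ∉ C.basicOpen (E.eqn x h)) : IsClosed ({w} : Set C) := by
  refine isClosed_of_ne_genericPoint c fun hgen => hz ?_
  subst hgen
  have : Nonempty V := ⟨⟨_, hw⟩⟩
  rw [C.mem_basicOpen _ _ hw]
  refine (?_ : C.presheaf.germ V (genericPoint C) hw (E.eqn x h) ≠ 0) |> fun h0 =>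
    (isUnit_iff_ne_zero (G₀ := C.functionField)).2 h0
  exact (map_ne_zero_iff _ (germ_injective_of_isIntegral C _ hw)).2
    (nonZeroDivisors.ne_zero (E.eqn_mem_nonZeroDivisors x h))

/-- Vanishing at a point does not depend on the equation. -/
lemma notMem_basicOpen_eqn {x y w : C} {V V' : C.Opens} (h : V ≤ E.V x) (h' : V' ≤ E.V y)
    (hw : w ∈ V) (hw' : w ∈ V') (hz : w ∉ C.basicOpen (E.eqn y h')) :
    w ∉ C.basicOpen (E.eqn x h) := fun hmem => hz <| by
  have hm : w ∈ V ⊓ V' := ⟨hw, hw'⟩
  rw [← mem_basicOpen_res (inf_le_right : V ⊓ V' ≤ V') hm, res_eqn]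
  refine mem_basicOpen_of_dvd (E.eqn_dvd_eqn x y (inf_le_left.trans h) _) ?_
  rw [← res_eqn E x h (inf_le_left : V ⊓ V' ≤ V), mem_basicOpen_res _ hm]
  exact hmem

include c in
/-- An effective divisor minus one of its zeros. -/
theorem exists_eq_point_mul {x w : C} (hw : w ∈ E.V x) (hz : w ∉ C.basicOpen (E.f x)) :
    ∃ E' : EffDiv C, IsClosed ({w} : Set C) ∧ E.cls = ptCls w * E'.cls ∧
      (∀ y v, v ∈ E.V y → v ∉ C.basicOpen (E.f y) → v = w ∨
        ∃ y', v ∈ E'.V y' ∧ v ∉ C.basicOpen (E'.f y')) ∧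
      (∀ U, E.vanishing c U ≤ E'.vanishing c U) ∧
      ∀ U, IsAffineOpen U → w ∈ U → E.vanishing c U ≠ E'.vanishing c U := by
  have hz' : w ∉ C.basicOpen (E.eqn x (W := E.V x) le_rfl) := by rwa [eqn, res_refl]
  have hc := E.isClosed_of_notMem c le_rfl hw hz'
  obtain ⟨P, hP⟩ := exists_isPointDiv c hc
  have hdiv : ∀ y, P.eqn y (W := E.V y ⊓ P.V y) inf_le_right ∣ E.eqn y inf_le_left := fun y =>
    (hP y _ _ _).2 fun hy => E.notMem_basicOpen_eqn _ _ hy hw hz'
  choose g hg using hdiv
  have hreg : ∀ y (V : C.Opens) (h : V ≤ E.V y ⊓ P.V y), res h (g y) ∈ Γ(C, V)⁰ := fun y V h => by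
    have h1 := E.eqn_mem_nonZeroDivisors y (h.trans inf_le_left)
    rw [← res_eqn E y inf_le_left h, hg y, map_mul] at h1
    exact (mul_mem_nonZeroDivisors.1 h1).2
  let E' : EffDiv C :=
    { V := fun y => E.V y ⊓ P.V y
      mem := fun y => ⟨E.mem y, P.mem y⟩
      f := g
      dvd := fun y y' V hy hy' => by
        obtain ⟨a, ha⟩ := E.eqn_dvd_eqn y y' (hy.trans inf_le_left) (hy'.trans inf_le_left)
        obtain ⟨b, hb⟩ := P.eqn_dvd_eqn y' y (hy'.trans inf_le_right) (hy.trans inf_le_right)
        have h1 := congrArg (res hy) (hg y)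
        have h2 := congrArg (res hy') (hg y')
        simp only [map_mul, res_eqn] at h1 h2
        refine ⟨b * a, (mul_cancel_left_mem_nonZeroDivisors
          (P.eqn_mem_nonZeroDivisors y (hy.trans inf_le_right))).1 ?_⟩
        rw [← h1, ha, h2, hb]
        ring
      regular := hreg }
  have hEg : ∀ y (V : C.Opens) (h : V ≤ E'.V y),
      E.eqn y (h.trans inf_le_left) = P.eqn y (h.trans inf_le_right) * E'.eqn y h := fun y V h => by
    have h1 := congrArg (res h) (hg y)
    simp only [map_mul, res_eqn] at h1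
    exact h1
  refine ⟨E', hc, ?_, fun y v hv hvz => ?_, fun U a ha y => ?_, fun U hU hwU heq => ?_⟩
  · rw [← hP.cls_eq_ptCls, ← EffDiv.cls_mul]
    have hm : ∀ y, (P.mul E').eqn y (W := E.V y ⊓ (P.mul E').V y) inf_le_right =
        E.eqn y inf_le_left := fun y => by
      rw [eqn]
      show res _ (P.eqn y _ * E'.eqn y _) = _
      rw [map_mul, res_eqn, res_eqn]
      exact (hEg y _ (inf_le_right.trans inf_le_right)).symm
    exact cls_eq_of_dvd_dvd (fun y => (hm y).symm.dvd) (fun y => (hm y).dvd)
  · by_cases hvw : v = w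
    · exact Or.inl hvw
    · refine Or.inr ⟨v, ⟨E.mem v, P.mem v⟩, fun hmem => hvz ?_⟩
      have hv' : v ∈ E'.V v := ⟨E.mem v, P.mem v⟩
      have h1 : v ∈ C.basicOpen (E.eqn v (W := E'.V v) inf_le_left) := by
        rw [hEg v _ le_rfl, mem_basicOpen_mul]
        refine ⟨hP.mem_basicOpen_eqn hc _ hv' hvw, ?_⟩
        rwa [eqn, res_refl]
      by_contra hne
      refine E.notMem_basicOpen_eqn inf_le_left le_rfl hv' hv ?_ h1
      rwa [eqn, res_refl]
  · obtain ⟨d, hd⟩ := ha y
    show E'.eqn y (W := U ⊓ E'.V y) inf_le_right ∣ _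
    have hle : U ⊓ E'.V y ≤ U ⊓ E.V y := inf_le_inf_left _ inf_le_left
    have h1 := congrArg (res hle) hd
    simp only [map_mul, res_res, res_eqn] at h1
    rw [h1, hEg y _ inf_le_right]
    exact dvd_mul_of_dvd_left (dvd_mul_left _ _) _
  · obtain ⟨t, ht⟩ := exists_sect_mem_basicOpen E'.cocycle.inv hU hwU
    have hmem : (show Fun c U from E'.invToFun U t) ∈ E'.vanishing c U :=
      fun y => (mem_range_invToFun E').1 ⟨t, rfl⟩ y
    rw [← heq] at hmem
    have hle : U ⊓ E'.V w ≤ U ⊓ E.V w := inf_le_inf_left _ inf_le_left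
    obtain ⟨d, hd⟩ := hmem w
    have h1 := congrArg (res hle) hd
    simp only [map_mul, res_res, res_eqn] at h1
    have h2 := E'.res_invToFun t w (V := U ⊓ E'.V w) inf_le_left inf_le_right
    have h3 : P.eqn w (W := U ⊓ E'.V w) (inf_le_right.trans inf_le_right) ∣
        t.at w inf_le_left inf_le_right :=
      ⟨res hle d, (mul_cancel_left_mem_nonZeroDivisors
        (E'.eqn_mem_nonZeroDivisors w (W := U ⊓ E'.V w) inf_le_right)).1 (by
          rw [← h2]
          refine h1.trans ?_
          rw [hEg w _ inf_le_right]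
          ring)⟩
    exact (hP w _ _ _).1 h3 ⟨hwU, E'.mem w⟩ ht

variable {E}

omit [IsAlgClosed K] [SmoothOfRelativeDimension 1 c] [LocallyOfFiniteType c] in
lemma finrank_vanishing_lt {E E' : EffDiv C} {U : C.Opens} (hU : IsAffineOpen U) (f : Γ(C, U))
    (hfin : (lineHom c f).Finite) (hle : E.vanishing c U ≤ E'.vanishing c U)
    (hne : E.vanishing c U ≠ E'.vanishing c U) :
    Module.finrank K (Fun c U ⧸ E'.vanishing c U) < Module.finrank K (Fun c U ⧸ E.vanishing c U) := by
  have := E.finiteDimensional_vanishing c hU f hfin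
  have h := LinearMap.finrank_range_add_finrank_ker (Submodule.factor hle)
  rw [LinearMap.range_eq_top.2 (Submodule.factor_surjective hle), finrank_top] at h
  have hk : Module.finrank K (LinearMap.ker (Submodule.factor hle)) ≠ 0 := fun h0 => hne <| by
    refine le_antisymm hle fun a ha => ?_
    have hker : LinearMap.ker (Submodule.factor hle) = ⊥ := Submodule.finrank_eq_zero.1 h0
    refine (Submodule.Quotient.mk_eq_zero _).1 (LinearMap.ker_eq_bot.1 hker ?_)
    rw [map_zero]
    exact (Submodule.Quotient.mk_eq_zero _).2 ha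
  omega

variable (E)

omit [IsAlgClosed K] [SmoothOfRelativeDimension 1 c] [LocallyOfFiniteType c] in
lemma finrank_vanishing_le {E E' : EffDiv C} {U : C.Opens} (hU : IsAffineOpen U) (f : Γ(C, U))
    (hfin : (lineHom c f).Finite) (hle : E.vanishing c U ≤ E'.vanishing c U) :
    Module.finrank K (Fun c U ⧸ E'.vanishing c U) ≤ Module.finrank K (Fun c U ⧸ E.vanishing c U) := by
  have := E.finiteDimensional_vanishing c hU f hfin
  exact LinearMap.finrank_le_finrank_of_surjective (f := Submodule.factor hle)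
    (Submodule.factor_surjective hle)

/-- An effective divisor is a finite product of points, among which all its zeros. -/
theorem exists_eq_prod (D : CurveChart c) :
    ∃ S : Multiset C, (∀ z ∈ S, IsClosed ({z} : Set C)) ∧ E.cls = (S.map ptCls).prod ∧
      ∀ x, ∀ w ∈ E.V x, w ∉ C.basicOpen (E.f x) → w ∈ S := by
  induction hn : Module.finrank K (Fun c D.U₀ ⧸ E.vanishing c D.U₀) +
      Module.finrank K (Fun c D.U₁ ⧸ E.vanishing c D.U₁) using Nat.strong_induction_on
    generalizing E with
  | _ n ih =>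
    by_cases hex : ∃ x w, w ∈ E.V x ∧ w ∉ C.basicOpen (E.f x)
    · obtain ⟨x, w, hw, hz⟩ := hex
      obtain ⟨E', hc, hcls, hzeros, hle, hne⟩ := E.exists_eq_point_mul c hw hz
      have hlt : Module.finrank K (Fun c D.U₀ ⧸ E'.vanishing c D.U₀) +
          Module.finrank K (Fun c D.U₁ ⧸ E'.vanishing c D.U₁) < n := by
        rw [← hn]
        have h₀ := finrank_vanishing_le c D.affine₀ D.x D.finite₀ (hle D.U₀)
        have h₁ := finrank_vanishing_le c D.affine₁ D.y D.finite₁ (hle D.U₁)
        rcases (D.cover.ge (Set.mem_univ w) : w ∈ D.U₀ ⊔ D.U₁) with h | h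
        · have := finrank_vanishing_lt c D.affine₀ D.x D.finite₀ (hle D.U₀) (hne _ D.affine₀ h)
          omega
        · have := finrank_vanishing_lt c D.affine₁ D.y D.finite₁ (hle D.U₁) (hne _ D.affine₁ h)
          omega
      obtain ⟨S, hS, hSc, hSz⟩ := ih _ hlt E' rfl
      refine ⟨w ::ₘ S, fun v hv => ?_, ?_, fun y v hv hvz => ?_⟩
      · rcases Multiset.mem_cons.1 hv with rfl | hv
        · exact hc
        · exact hS v hv
      · rw [Multiset.map_cons, Multiset.prod_cons, hcls, hSc]
      · rcases hzeros y v hv hvz with rfl | ⟨y', hv', hvz'⟩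
        · exact Multiset.mem_cons_self _ _
        · exact Multiset.mem_cons_of_mem (hSz y' v hv' hvz')
    · push Not at hex
      refine ⟨0, by simp, ?_, fun x w hw hz => absurd (hex x w hw) hz⟩
      rw [Multiset.map_zero, Multiset.prod_zero]
      exact E.cls_eq_one fun x => isUnit_iff_forall_mem_basicOpen.2 (hex x)

end EffDiv

end curve

end Fermat.Agent.Jacobian
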